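import Fermat.Agent.AbVar.Model.Glue
import Fermat.Agent.Jac.Scheme.CoverFun

/-!
# Rational maps from smooth proper curves to proper schemes are morphisms
-/

set_option autoImplicit false

universe u

noncomputable section

open CategoryTheory CategoryTheory.Limits AlgebraicGeometry

namespace Fermat.Agent.AbVar.Model

theorem valuationRing_stalk {k : Type u} [Field k] [IsAlgClosed k] {C : Scheme.{u}}
    (c : C ⟶ Spec (CommRingCat.of k)) [IsProper c] [SmoothOfRelativeDimension 1 c] [IsIntegral C]
    (x : C) :
    ValuationRing (C.presheaf.stalk x) := by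
  rw [ValuationRing.iff_isInteger_or_isInteger (C.presheaf.stalk x) C.functionField]
  exact fun F => Jac.CoverFun.reg_or_reg_inv c F x

theorem exists_lift_sq {X S : Scheme.{u}} (sX : X ⟶ S) [IsProper sX] (R : CommRingCat.{u})
    (K : Type u) [IsDomain R] [ValuationRing R] [Field K] [Algebra R K] [IsFractionRing R K]
    (i₁ : Spec (CommRingCat.of K) ⟶ X) (i₂ : Spec R ⟶ S)
    (w : i₁ ≫ sX = Spec.map (CommRingCat.ofHom (algebraMap R K) : R ⟶ CommRingCat.of K) ≫ i₂) :
    ∃ ψ : Spec R ⟶ X,
      Spec.map (CommRingCat.ofHom (algebraMap R K) : R ⟶ CommRingCat.of K) ≫ ψ = i₁ ∧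
        ψ ≫ sX = i₂ := by
  have h := ‹IsProper sX›
  rw [IsProper.eq_valuativeCriterion] at h
  have hV : ValuativeCriterion sX := h.1.1.1
  obtain ⟨⟨ψ, h1, h2⟩⟩ := (hV.existence ⟨R, K, i₁, i₂, ⟨w⟩⟩).exists_lift
  exact ⟨ψ, h1, h2⟩

/-- A rational map over `S` from a smooth proper curve to a proper `S`-scheme extends to an
`S`-morphism. -/
theorem exists_extend {k : Type u} [Field k] [IsAlgClosed k] {C S Y : Scheme.{u}}
    (c : C ⟶ Spec (CommRingCat.of k)) [IsProper c] [SmoothOfRelativeDimension 1 c] [IsIntegral C]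
    (sC : C ⟶ S) (sY : Y ⟶ S) [IsProper sY] [S.IsSeparated] (g : Spec C.functionField ⟶ Y)
    (hg : g ≫ sY = C.fromSpecStalk (genericPoint C) ≫ sC) :
    ∃ φ : C ⟶ Y, φ ≫ sY = sC ∧ C.fromSpecStalk (genericPoint C) ≫ φ = g := by
  have : Y.IsSeparated := by
    rw [Scheme.isSeparated_iff, ← terminal.comp_from sY]
    infer_instance
  let : C.Over S := ⟨sC⟩
  let : Y.Over S := ⟨sY⟩
  have : LocallyOfFiniteType (Y ↘ S) := inferInstanceAs (LocallyOfFiniteType sY)
  let f : C ⤏ Y := Scheme.RationalMap.ofFunctionField sC sY g hg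
  have hf : f.IsOver S := (Scheme.RationalMap.equivFunctionFieldOver ⟨g, ⟨hg⟩⟩).2
  -- At every point the stalk is a valuation ring, so the valuative criterion extends `g` to it,
  have htop : f.domain = ⊤ := by
    refine eq_top_iff.mpr fun x _ => ?_
    have := valuationRing_stalk c x
    have hsp : genericPoint C ⤳ x := genericPoint_specializes x
    have e : Spec.map (CommRingCat.ofHom (algebraMap (C.presheaf.stalk x) C.functionField)) =
        Spec.map (C.presheaf.stalkSpecializes hsp) := rfl
    have hdom : IsDomain (C.presheaf.stalk x) :=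
      (IsFractionRing.injective (C.presheaf.stalk x) C.functionField).isDomain
    obtain ⟨ψ, h1, h2⟩ := @exists_lift_sq _ _ sY _
      (C.presheaf.stalk x) C.functionField hdom this _ _ _ g
        (C.fromSpecStalk x ≫ sC)
      (hg.trans ((congrArg (· ≫ sC) (Scheme.SpecMap_stalkSpecializes_fromSpecStalk hsp).symm).trans
        (Category.assoc _ _ _)))
    -- and the map on the stalk spreads out to a neighbourhood.
    let p := Scheme.PartialMap.ofFromSpecStalk sC sY ψ h2
    have hx : x ∈ p.domain := Scheme.PartialMap.mem_domain_ofFromSpecStalk sC sY ψ h2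
    refine Scheme.RationalMap.mem_domain.mpr ⟨p, hx, ?_⟩
    refine Scheme.RationalMap.eq_of_fromFunctionField_eq _ _ ?_
    rw [Scheme.RationalMap.fromFunctionField_toRationalMap,
      Scheme.RationalMap.fromFunctionField_ofFunctionField]
    have hη : genericPoint C ∈ p.domain := hsp.mem_open p.domain.2 hx
    have h3 : p.domain.fromSpecStalkOfMem (genericPoint C) hη =
        Spec.map (C.presheaf.stalkSpecializes hsp) ≫ p.domain.fromSpecStalkOfMem x hx := by
      rw [← cancel_mono p.domain.ι, Category.assoc, Scheme.Opens.fromSpecStalkOfMem_ι,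
        Scheme.Opens.fromSpecStalkOfMem_ι, Scheme.SpecMap_stalkSpecializes_fromSpecStalk]
    change p.domain.fromSpecStalkOfMem (genericPoint C) hη ≫ p.hom = g
    rw [h3, Category.assoc]
    refine (congrArg (fun r => Spec.map (C.presheaf.stalkSpecializes hsp) ≫ r)
      (Scheme.PartialMap.fromSpecStalkOfMem_ofFromSpecStalk sC sY ψ h2)).trans ?_
    rw [← e]
    exact h1
  -- So the rational map is defined everywhere; its morphism restricts to `g`.
  let p := f.toPartialMap
  have hp : p.domain = ⊤ := htop
  let φ : C ⟶ Y := (C.topIso.inv ≫ (C.isoOfEq hp).inv) ≫ p.hom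
  have hι : (C.topIso.inv ≫ (C.isoOfEq hp).inv) ≫ p.domain.ι = 𝟙 C := by simp
  refine ⟨φ, ?_, ?_⟩
  · have h : p.hom ≫ sY = p.domain.ι ≫ sC := by
      have : S.IsSeparated := inferInstance
      have hi : f.toPartialMap.IsOver S := inferInstance
      exact (Scheme.PartialMap.isOver_iff (S := S)).mp hi
    rw [Category.assoc, h, ← Category.assoc, hι, Category.id_comp]
  · have h := Scheme.RationalMap.fromFunctionField_ofFunctionField sC sY g hg
    change f.fromFunctionField = g at h
    rw [← show f.toPartialMap.toRationalMap = f from f.toRationalMap_toPartialMap,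
      Scheme.RationalMap.fromFunctionField_toRationalMap] at h
    rw [← h]
    have hη : genericPoint C ∈ p.domain := hp ▸ trivial
    change _ = p.domain.fromSpecStalkOfMem (genericPoint C) hη ≫ p.hom
    rw [← Category.assoc]
    congr 1
    rw [← cancel_mono p.domain.ι, Category.assoc, hι, Category.comp_id,
      Scheme.Opens.fromSpecStalkOfMem_ι]

namespace Coord

variable {k : Type u} [Field k] [IsAlgClosed k] {L : Type u} [Field L] [Algebra k L] (D : Coord k L)

/-- A rational map over `S` from the smooth proper model to a proper `S`-scheme extends to an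
`S`-morphism. -/
theorem exists_extend {S Y : Scheme.{u}} (sC : D.model ⟶ S) (sY : Y ⟶ S) [IsProper sY]
    [S.IsSeparated] (g : Spec (CommRingCat.of L) ⟶ Y) (hg : g ≫ sY = D.gen ≫ sC) :
    ∃ φ : D.model ⟶ Y, φ ≫ sY = sC ∧ D.gen ≫ φ = g := by
  let pt : Spec (CommRingCat.of L) := IsLocalRing.closedPoint L
  have hpt : D.gen pt = genericPoint D.model := by
    rw [genericPoint_model, Subsingleton.elim pt default]
  let ε : D.model.functionField ⟶ CommRingCat.of L :=
    (D.model.presheaf.stalkCongr (Inseparable.of_eq hpt.symm)).hom ≫ Scheme.stalkClosedPointTo D.gen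
  have hsurj : Function.Surjective (Scheme.stalkClosedPointTo D.gen).hom := by
    rw [Scheme.stalkClosedPointTo, CommRingCat.hom_comp, RingHom.coe_comp]
    exact (ConcreteCategory.bijective_of_isIso
      (stalkClosedPointIso (CommRingCat.of L)).hom).surjective.comp
      (D.gen.stalkMap_surjective pt)
  have hbij : Function.Bijective ε.hom := by
    refine ⟨RingHom.injective (f := (show D.model.functionField →+* L from ε.hom)), ?_⟩
    rw [CommRingCat.hom_comp, RingHom.coe_comp]
    refine hsurj.comp (ConcreteCategory.bijective_of_isIso _).surjective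
  have : IsIso ε := (ConcreteCategory.isIso_iff_bijective _).mpr hbij
  have hgen : Spec.map ε ≫ D.model.fromSpecStalk (genericPoint D.model) = D.gen := by
    rw [Spec.map_comp, Category.assoc]
    refine (congrArg (Spec.map (Scheme.stalkClosedPointTo D.gen) ≫ ·)
      (Scheme.SpecMap_stalkSpecializes_fromSpecStalk (Inseparable.of_eq hpt.symm).ge)).trans ?_
    exact Scheme.Spec_stalkClosedPointTo_fromSpecStalk _
  obtain ⟨φ, h1, h2⟩ := Model.exists_extend D.modelTo sC sY (inv (Spec.map ε) ≫ g) (by
    rw [Category.assoc, hg, IsIso.inv_comp_eq, ← Category.assoc, hgen])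
  exact ⟨φ, h1, by rw [← hgen, Category.assoc, h2, IsIso.hom_inv_id_assoc]⟩

end Coord

end Fermat.Agent.AbVar.Model

end
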