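import Fermat.Agent.AbVar.Model.Chart
import Mathlib.Algebra.Lie.OfAssociative
import Mathlib.RingTheory.NoetherNormalization

/-!
# A curve through a point and a rational point: the algebra

For a point with coordinates `x` over a finite cover of affine space, the curve is the line
`t ↦ t • x`, lifted to the cover so that it passes through the point at `t = 1`; at `t = 0` it
passes through a rational point.

The main theorem is `exists_line`.
-/

set_option autoImplicit false

universe u

noncomputable section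

open Polynomial IntermediateField

namespace Fermat.Agent.AbVar.Model

variable {k : Type u} [Field k] [IsAlgClosed k] {Ω : Type u} [Field Ω] [Algebra k Ω]

/-! ### Values at a valuation centred at a point -/

omit [IsAlgClosed k] in
theorem sub_mem_nonunits_unique (V : ValuationSubring Ω) {z : Ω} {c c' : k}
    (h : z - algebraMap k Ω c ∈ V.nonunits) (h' : z - algebraMap k Ω c' ∈ V.nonunits)
    (hk : ∀ a, algebraMap k Ω a ∈ V) : c = c' := by
  by_contra hne
  rw [ValuationSubring.mem_nonunits_iff] at h h'
  have h1 : V.valuation (algebraMap k Ω (c - c')) < 1 := by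
    rw [map_sub, show algebraMap k Ω c - algebraMap k Ω c' =
      (z - algebraMap k Ω c') - (z - algebraMap k Ω c) by ring]
    exact lt_of_le_of_lt (Valuation.map_sub _ _ _) (max_lt h' h)
  have h2 := (V.valuation_le_one_iff _).mpr (hk (c - c')⁻¹)
  have h3 : V.valuation (algebraMap k Ω (c - c')) *
      V.valuation (algebraMap k Ω (c - c')⁻¹) = 1 := by
    rw [← map_mul, ← map_mul, mul_inv_cancel₀ (sub_ne_zero.mpr hne), map_one, map_one]
  exact absurd h3 (mul_lt_one_of_lt_of_le h1 h2).ne

/-- An element integral over the valued functions has a value in the constants. -/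
theorem exists_value (V : ValuationSubring Ω) (hk : ∀ a, algebraMap k Ω a ∈ V) {A : Type u}
    [CommRing A] (ψ : A →+* Ω) (ev : A →+* k)
    (hψ : ∀ a, ψ a - algebraMap k Ω (ev a) ∈ V.nonunits) {z : Ω}
    (hz : ψ.IsIntegralElem z) : z ∈ V ∧ ∃ c : k, z - algebraMap k Ω c ∈ V.nonunits := by
  have hψV : ∀ a, ψ a ∈ V := fun a => by
    have h1 : ψ a - algebraMap k Ω (ev a) ∈ V := V.nonunits_subset (hψ a)
    simpa using add_mem h1 (hk (ev a))
  let ψV : A →+* V := ψ.codRestrict V.toSubring hψV
  obtain ⟨p, hp, hpz⟩ := hz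
  have hzV : z ∈ V := by
    have h1 : IsIntegral V z :=
      ⟨p.map ψV, hp.map _, by rw [eval₂_map]; exact hpz⟩
    obtain ⟨v, rfl⟩ := IsIntegrallyClosed.algebraMap_eq_of_integral (R := V) (K := Ω) h1
    exact v.2
  refine ⟨hzV, ?_⟩
  let κ := IsLocalRing.ResidueField V
  let kV : k →+* V := (algebraMap k Ω).codRestrict V.toSubring hk
  let : Algebra k κ := ((IsLocalRing.residue V).comp kV).toAlgebra
  have hcomp : (IsLocalRing.residue V).comp ψV = (algebraMap k κ).comp ev := RingHom.ext fun a => by
    rw [← sub_eq_zero]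
    change IsLocalRing.residue V (ψV a) - IsLocalRing.residue V (kV (ev a)) = 0
    rw [← map_sub, IsLocalRing.residue_eq_zero_iff, ← ValuationSubring.coe_mem_nonunits_iff]
    exact hψ a
  have hint : IsIntegral k (IsLocalRing.residue V ⟨z, hzV⟩) := by
    refine ⟨p.map ev, hp.map _, ?_⟩
    rw [eval₂_map, ← hcomp, ← hom_eval₂]
    have : p.eval₂ ψV ⟨z, hzV⟩ = 0 := Subtype.val_injective (by
      change V.subtype (p.eval₂ ψV ⟨z, hzV⟩) = 0
      rw [hom_eval₂]; exact hpz)
    rw [this, map_zero]
  obtain ⟨c, hc⟩ := minpoly.mem_range_of_degree_eq_one k _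
    (IsAlgClosed.degree_eq_one_of_irreducible k (minpoly.irreducible hint))
  refine ⟨c, ?_⟩
  rw [show z - algebraMap k Ω c = ((⟨z, hzV⟩ - kV c : V) : Ω) from rfl,
    ValuationSubring.coe_mem_nonunits_iff, ← IsLocalRing.residue_eq_zero_iff, map_sub, sub_eq_zero]
  exact hc.symm

omit [IsAlgClosed k] in
/-- The values form a ring homomorphism. -/
theorem exists_valueHom (V : ValuationSubring Ω) (hk : ∀ a, algebraMap k Ω a ∈ V) {S : Type u}
    [CommRing S] (ρ : S →+* Ω) (h : ∀ s, ρ s ∈ V ∧ ∃ c : k, ρ s - algebraMap k Ω c ∈ V.nonunits) :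
    ∃ τ : S →+* k, ∀ s, ρ s - algebraMap k Ω (τ s) ∈ V.nonunits := by
  let ρV : S →+* V := ρ.codRestrict V.toSubring fun s => (h s).1
  let kV : k →+* V := (algebraMap k Ω).codRestrict V.toSubring hk
  let res := IsLocalRing.residue V
  have hres : ∀ s, ∀ c : k, ρ s - algebraMap k Ω c ∈ V.nonunits ↔
      res (ρV s) = res (kV c) := fun s c => by
    rw [← sub_eq_zero (a := res _), ← map_sub, IsLocalRing.residue_eq_zero_iff,
      ← ValuationSubring.coe_mem_nonunits_iff]
    rfl
  choose τ hτ using fun s => (h s).2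
  have hinj : Function.Injective (res.comp kV) := (res.comp kV).injective
  have hτ' : ∀ s, (res.comp kV) (τ s) = (res.comp ρV) s := fun s => ((hres s _).mp (hτ s)).symm
  exact ⟨{ toFun := τ
           map_one' := hinj (by rw [hτ', map_one, map_one])
           map_mul' := fun a b => hinj (by rw [hτ', map_mul, map_mul, hτ', hτ'])
           map_zero' := hinj (by rw [hτ', map_zero, map_zero])
           map_add' := fun a b => hinj (by rw [hτ', map_add, map_add, hτ', hτ']) }, hτ⟩

omit [IsAlgClosed k] in
/-- A valuation centred at a point of the line. -/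
theorem exists_valuationSubring (j : k[X] →ₐ[k] Ω) (hj : Function.Injective j) (c : k) :
    ∃ V : ValuationSubring Ω, (∀ a, algebraMap k Ω a ∈ V) ∧
      (∀ q, j q - algebraMap k Ω (q.eval c) ∈ V.nonunits) ∧ j (X - C c) ∈ V.nonunits := by
  let A : Subring Ω := j.toRingHom.range
  let e : k[X] →+* A := j.toRingHom.rangeRestrict
  let I : Ideal A := Ideal.span {e (X - C c)}
  have hI : I ≠ ⊤ := by
    rw [Ne, Ideal.span_singleton_eq_top]
    rintro ⟨w, hw⟩
    obtain ⟨q, hq⟩ := j.toRingHom.rangeRestrict_surjective (↑w⁻¹ : A)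
    have h1 : e ((X - C c) * q) = e 1 := by
      rw [map_mul, map_one, ← hw]
      exact (congrArg (fun v => (w : A) * v) hq).trans w.mul_inv
    have h2 : (X - C c) * q = 1 := hj (congrArg Subtype.val h1)
    exact not_isUnit_X_sub_C c (.of_mul_eq_one _ h2)
  obtain ⟨V, hAV, hIV⟩ := Ideal.image_subset_nonunits_valuationSubring I hI
  have hmem : ∀ q, j q ∈ V := fun q => hAV ⟨q, rfl⟩
  refine ⟨V, fun a => ?_, fun q => ?_, ?_⟩
  · rw [← j.commutes a]
    exact hmem _
  · obtain ⟨h, hh⟩ := X_sub_C_dvd_sub_C_eval (a := c) (p := q)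
    refine hIV ⟨e (q - C (q.eval c)), ?_, ?_⟩
    · rw [hh, map_mul]
      exact Ideal.mul_mem_right _ _ (Ideal.subset_span rfl)
    · change j (q - C (q.eval c)) = _
      rw [map_sub, show j (C (q.eval c)) = algebraMap k Ω (q.eval c) from j.commutes _]
  · exact hIV ⟨e (X - C c), Ideal.subset_span rfl, rfl⟩

theorem exists_normalised_lift [IsAlgClosed Ω] {A : Type u} [CommRing A] [IsDomain A] [Algebra A k]
    [FaithfulSMul A k] (V : ValuationSubring Ω) (hk : ∀ a, algebraMap k Ω a ∈ V) (ψ : A →+* Ω)
    (hψ : Function.Injective ψ) (hval : ∀ a, ψ a - algebraMap k Ω (algebraMap A k a) ∈ V.nonunits)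
    {R : Type u} [CommRing R] (ι : R →+* k) (hι : ∀ r, IsIntegral A (ι r)) :
    ∃ ρ : R →+* Ω, (∀ r, ψ.IsIntegralElem (ρ r)) ∧ (∀ r, ρ r - algebraMap k Ω (ι r) ∈ V.nonunits) ∧
      ∀ a r, ι r = algebraMap A k a → ρ r = ψ a := by
  let : Algebra A Ω := ψ.toAlgebra
  have : FaithfulSMul A Ω := (faithfulSMul_iff_algebraMap_injective A Ω).mpr hψ
  let F := FractionRing A
  let : Algebra F k := FractionRing.liftAlgebra A k
  let : Algebra F Ω := FractionRing.liftAlgebra A Ω
  -- Embed the algebraic closure `N` of `F` in `k` into `Ω`. Reducing that embedding on the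
  -- integral closure `S` gives an automorphism `e` of `N`; precompose with its inverse.
  let N := algebraicClosure F k
  have halg : Algebra.IsAlgebraic F N := algebraicClosure.isAlgebraic F k
  let θ : N →ₐ[F] Ω := IsAlgClosed.lift
  have hAN : Function.Injective (algebraMap A N) := fun a b h =>
    FaithfulSMul.algebraMap_injective A k (congrArg (Subtype.val : N → k) h)
  have : FaithfulSMul A N := (faithfulSMul_iff_algebraMap_injective A N).mpr hAN
  have : IsScalarTower A N k := IsScalarTower.of_algebraMap_eq fun _ => rfl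
  let S := integralClosure A N
  have : Algebra.IsAlgebraic A N :=
    (IsFractionRing.comap_isAlgebraic_iff (A := A) (K := F) (C := N)).mpr halg
  have : IsFractionRing S N :=
    integralClosure.isFractionRing_of_algebraic (A := A) fun z hz => (map_eq_zero_iff _ hAN).mp hz
  let ρS : S →+* Ω := ((θ.restrictScalars A).comp S.val).toRingHom
  have hρS : ∀ z : S, ψ.IsIntegralElem (ρS z) := fun z =>
    (IsIntegral.map ((θ.restrictScalars A).comp S.val) (Algebra.IsIntegral.isIntegral (R := A) z) :
      IsIntegral A (ρS z))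
  obtain ⟨τ, hτ⟩ := exists_valueHom V hk ρS fun z =>
    exists_value V hk ψ (algebraMap A k) hval (hρS z)
  have hρA : ∀ a : A, ρS (algebraMap A S a) = ψ a :=
    fun a => ((θ.restrictScalars A).comp S.val).commutes a
  have hτA : ∀ a : A, τ (algebraMap A S a) = algebraMap A k a := fun a =>
    sub_mem_nonunits_unique V (hτ _) (by rw [hρA]; exact hval a) hk
  have hτinj : Function.Injective τ := by
    rw [RingHom.injective_iff_ker_eq_bot]
    refine Ideal.eq_bot_of_comap_eq_bot (R := A) ?_
    ext a
    rw [Ideal.mem_comap, RingHom.mem_ker, hτA, Ideal.mem_bot]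
    exact map_eq_zero_iff _ (FaithfulSMul.algebraMap_injective A k)
  let gk : N →+* k := IsFractionRing.lift (K := N) hτinj
  have hgkS : ∀ z : S, gk z = τ z := fun z => IsFractionRing.lift_algebraMap hτinj z
  have hgk : gk.comp (algebraMap F N) = algebraMap F k := by
    refine IsLocalization.ringHom_ext (nonZeroDivisors A) (RingHom.ext fun a => ?_)
    rw [RingHom.comp_apply, RingHom.comp_apply, RingHom.comp_apply,
      ← IsScalarTower.algebraMap_apply A F N, ← IsScalarTower.algebraMap_apply A F k,
      IsScalarTower.algebraMap_apply A S N]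
    exact (hgkS (algebraMap A S a)).trans (hτA a)
  let gF : N →ₐ[F] k := { gk with commutes' := fun r => RingHom.congr_fun hgk r }
  have hgN : ∀ z, gF z ∈ N := fun z => mem_algebraicClosure_iff.mpr ((halg.isAlgebraic z).algHom gF)
  let gN : N →ₐ[F] N := gF.codRestrict N.toSubalgebra hgN
  let e : N ≃ₐ[F] N := AlgEquiv.ofBijective gN (Algebra.IsAlgebraic.algHom_bijective gN)
  have hRN : ∀ r : R, ι r ∈ N := fun r =>
    mem_algebraicClosure_iff.mpr ((hι r).isAlgebraic.extendScalars (IsFractionRing.injective A F))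
  let iN : R →+* N := ι.codRestrict N hRN
  have hiS : ∀ r, e.symm (iN r) ∈ S := fun r => by
    refine IsIntegral.map (e.symm.toAlgHom.restrictScalars A) ?_
    exact (isIntegral_algebraMap_iff (FaithfulSMul.algebraMap_injective N k)).mp (hι r)
  let iS : R →+* S := ((e.symm : N →+* N).comp iN).codRestrict S hiS
  refine ⟨ρS.comp iS, fun r => hρS _, fun r => ?_, fun a r har => ?_⟩
  · have h1 := hτ (iS r)
    rw [← hgkS] at h1
    have h2 : gk (iS r : N) = ι r := congrArg Subtype.val (e.apply_symm_apply (iN r))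
    rwa [h2] at h1
  · have h2 : iS r = algebraMap A S a := Subtype.ext (by
      change e.symm (iN r) = algebraMap A N a
      rw [show iN r = algebraMap A N a from Subtype.ext har,
        IsScalarTower.algebraMap_apply A F N, AlgEquiv.commutes])
    change ρS (iS r) = _
    rw [h2, hρA]

/-! ### The line -/

section Line

variable {K k' : Type u} [Field K] [IsAlgClosed K] [Field k'] [IsAlgClosed k'] [Algebra K k']
  {R : Type u} [CommRing R] [Algebra K R] [Algebra.FiniteType K R]

omit [IsAlgClosed K] [IsAlgClosed k'] [Algebra.FiniteType K R] in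
/-- A ring map with values in the smaller field is an algebra map to it. -/
private theorem exists_algHom_of_range (σ' : R →+* k')
    (hc : ∀ c, σ' (algebraMap K R c) = algebraMap K k' c)
    (h : ∀ r, σ' r ∈ (algebraMap K k').range) :
    ∃ σ₀ : R →ₐ[K] K, ∀ r, algebraMap K k' (σ₀ r) = σ' r := by
  choose σK hσK using h
  exact ⟨{ toFun := σK
           map_one' := (algebraMap K k').injective (by rw [hσK, map_one, map_one])
           map_mul' := fun a b =>
             (algebraMap K k').injective (by rw [hσK, map_mul, map_mul, hσK, hσK])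
           map_zero' := (algebraMap K k').injective (by rw [hσK, map_zero, map_zero])
           map_add' := fun a b =>
             (algebraMap K k').injective (by rw [hσK, map_add, map_add, hσK, hσK])
           commutes' := fun a => (algebraMap K k').injective (by rw [hσK, hc]; rfl) }, hσK⟩

omit [IsAlgClosed K] [IsAlgClosed k'] [Algebra K k'] [Algebra.FiniteType K R] in
/-- A field algebraic over the image of the polynomial ring is algebraic over the field generated by
the image of the variable. -/
private theorem isAlgebraic_adjoin_gen {Ω : Type u} [Field Ω] [Algebra k' Ω] (j : k'[X] →ₐ[k'] Ω)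
    (hj : Function.Injective j) (halg : ∀ z : Ω, ∃ p : k'[X][X], p ≠ 0 ∧ p.eval₂ j.toRingHom z = 0)
    (L : IntermediateField k' Ω) (tL : L) (ht : (tL : Ω) = j X) : Algebra.IsAlgebraic k'⟮tL⟯ L := by
  refine ⟨fun z => ?_⟩
  obtain ⟨p, hp, hpz⟩ := halg (z : Ω)
  let a : k'[X] →ₐ[k'] k'⟮tL⟯ := aeval (AdjoinSimple.gen k' tL)
  have ha : ((algebraMap L Ω).comp (algebraMap k'⟮tL⟯ L)).comp a.toRingHom = j.toRingHom := by
    have h1 : (L.val.comp ((IsScalarTower.toAlgHom k' k'⟮tL⟯ L).comp a)) = j :=
      Polynomial.algHom_ext (by simp [a, ht])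
    exact congrArg AlgHom.toRingHom h1
  have hainj : Function.Injective a := fun b c h => hj (by
    have := congrArg (fun w => algebraMap L Ω (algebraMap k'⟮tL⟯ L w)) h
    exact (RingHom.congr_fun ha b).symm.trans (this.trans (RingHom.congr_fun ha c)))
  refine ⟨p.map a.toRingHom, (Polynomial.map_ne_zero_iff hainj).mpr hp, ?_⟩
  apply (algebraMap L Ω).injective
  rw [map_zero, Polynomial.aeval_def, eval₂_map, hom_eval₂, ← RingHom.comp_assoc, ha]
  exact hpz

omit [IsAlgClosed K] [IsAlgClosed k'] [Algebra K k'] [Algebra.FiniteType K R] [CommRing R]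
  [Algebra K R] in
/-- Nonunits stay nonunits in the valuation ring of a subfield. -/
private theorem mem_nonunits_comap {Ω : Type u} [Field Ω] [Algebra k' Ω]
    {L : IntermediateField k' Ω} (W : ValuationSubring Ω) (z : L) (hz : (z : Ω) ∈ W.nonunits) :
    z ∈ (W.comap (algebraMap L Ω)).nonunits := by
  rw [ValuationSubring.mem_nonunits_iff_exists_mem_maximalIdeal] at hz ⊢
  obtain ⟨hzW, hzm⟩ := hz
  refine ⟨hzW, fun hu => hzm ?_⟩
  exact hu.map (((algebraMap L Ω).comp (W.comap (algebraMap L Ω)).subtype).codRestrict W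
    fun w => w.2)

omit [IsAlgClosed K] [IsAlgClosed k'] [Algebra K k'] [Algebra.FiniteType K R] [CommRing R]
  [Algebra K R] in
/-- A place at which a linear polynomial in a generator vanishes is nontrivial on the subfield. -/
private theorem comap_ne_top {Ω : Type u} [Field Ω] [Algebra k' Ω] (j : k'[X] →ₐ[k'] Ω)
    (hj : Function.Injective j) {L : IntermediateField k' Ω} (ht : j X ∈ L) (W : ValuationSubring Ω)
    (c : k') (hc : j (X - C c) ∈ W.nonunits) : W.comap (algebraMap L Ω) ≠ ⊤ := by
  intro htop
  have h0 : j (X - C c) ≠ 0 := (map_ne_zero_iff j hj).mpr (X_sub_C_ne_zero c)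
  let z : L := ⟨j X, ht⟩ - algebraMap k' L c
  have hz : (z : Ω) = j (X - C c) := by
    rw [map_sub, show j (C c) = algebraMap k' Ω c from j.commutes c]
    rfl
  have h1 : (z⁻¹ : L) ∈ W.comap (algebraMap L Ω) := htop ▸ trivial
  have h2 : (j (X - C c))⁻¹ ∈ W := by
    rw [← hz]
    simpa using h1
  rw [ValuationSubring.mem_nonunits_iff] at hc
  have h3 := (W.valuation_le_one_iff _).mpr h2
  rw [map_inv₀, inv_le_one₀ (lt_of_le_of_ne zero_le ((W.valuation.ne_zero_iff).mpr h0).symm)] at h3
  exact not_le.mpr hc h3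

omit [IsAlgClosed K] [IsAlgClosed k'] [Algebra.FiniteType K R] [CommRing R] [Algebra K R] in
/-- A function on affine space, restricted to the line `T ↦ T • x`, has at `T = c` its value at
`c • x`. -/
private theorem eval_line {s : ℕ} (x : Fin s → k') (c : k') (a : MvPolynomial (Fin s) K) :
    (MvPolynomial.aeval (fun i => C (x i) * X) a).eval c =
      MvPolynomial.aeval (fun i => x i * c) a :=
  AlgHom.congr_fun (MvPolynomial.algHom_ext
    (f := ((aeval c).restrictScalars K).comp (MvPolynomial.aeval fun i => C (x i) * X))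
    (g := MvPolynomial.aeval fun i => x i * c) fun i => by simp) a

/-- The curve through two points, inside a given algebraically closed field. -/
theorem exists_line_aux {Ω : Type u} [Field Ω] [IsAlgClosed Ω] [Algebra k' Ω] (j : k'[X] →ₐ[k'] Ω)
    (hj : Function.Injective j) (halg : ∀ z : Ω, ∃ p : k'[X][X], p ≠ 0 ∧ p.eval₂ j.toRingHom z = 0)
    (σ : R →ₐ[K] k') :
    ∃ (L : Type u) (_ : Field L) (_ : Algebra k' L) (_ : Coord k' L) (ρ : R →+* L)
      (V V₀ : ValuationSubring L) (σ₀ : R →ₐ[K] K),
      (∀ a, ρ (algebraMap K R a) = algebraMap k' L (algebraMap K k' a)) ∧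
        ((∀ a, algebraMap k' L a ∈ V) ∧ V ≠ ⊤ ∧ ∀ r, ρ r - algebraMap k' L (σ r) ∈ V.nonunits) ∧
          ((∀ a, algebraMap k' L a ∈ V₀) ∧ V₀ ≠ ⊤ ∧
            ∀ r, ρ r - algebraMap k' L (algebraMap K k' (σ₀ r)) ∈ V₀.nonunits) := by
  -- `R' = σ(R)` is a finite extension of a polynomial ring `A₀`, with coordinates `x` of the point
  let R' := σ.range
  have : Algebra.FiniteType K R' :=
    .of_surjective σ.rangeRestrict σ.rangeRestrict_surjective
  obtain ⟨s, g, hg, hgf⟩ := exists_finite_inj_algHom_of_fg K R'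
  let A₀ := MvPolynomial (Fin s) K
  let x : Fin s → k' := fun i => g (MvPolynomial.X i)
  let ev : A₀ →ₐ[K] k' := R'.val.comp g
  have hev : ev = MvPolynomial.aeval x := MvPolynomial.algHom_ext fun i => by simp [ev, x]
  let : Algebra A₀ k' := ev.toRingHom.toAlgebra
  have : IsScalarTower K A₀ k' := IsScalarTower.of_algebraMap_eq fun a => (ev.commutes a).symm
  have : FaithfulSMul A₀ k' :=
    (faithfulSMul_iff_algebraMap_injective A₀ k').mpr (Subtype.val_injective.comp hg)
  have hint : ∀ r : R', IsIntegral A₀ (r : k') := fun r => by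
    obtain ⟨p, hp, hpr⟩ := RingHom.IsIntegral.of_finite hgf r
    refine ⟨p, hp, ?_⟩
    rw [show algebraMap A₀ k' = R'.val.toRingHom.comp g.toRingHom from rfl]
    change p.eval₂ (R'.val.toRingHom.comp g.toRingHom) (R'.val.toRingHom r) = 0
    rw [← hom_eval₂]
    exact (congrArg R'.val.toRingHom hpr).trans (map_zero _)
  -- `φ` restricts `A₀` to the line `T ↦ T • x`: the point at `T = 1`, the origin at `T = 0`
  let φ : A₀ →ₐ[K] k'[X] := MvPolynomial.aeval fun i => C (x i) * X
  let ψ : A₀ →+* Ω := j.toRingHom.comp φ.toRingHom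
  have hφ1 : ∀ a, (φ a).eval 1 = ev a := fun a =>
    (eval_line x 1 a).trans (by simp [hev])
  have hφ0 : ∀ a, (φ a).eval 0 = algebraMap K k' (MvPolynomial.constantCoeff a) := fun a =>
    (eval_line x 0 a).trans (by simp [MvPolynomial.aeval_zero'])
  have hψ : Function.Injective ψ := fun a b h => by
    have hφab : φ a = φ b := hj h
    exact FaithfulSMul.algebraMap_injective A₀ k' (by
      change ev a = ev b
      rw [← hφ1, ← hφ1, hφab])
  -- places over `T = 1` and `T = 0`, and a lift `ρ'` of the line to `R'` through the given point at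
  -- the first; at the second it takes values `σ'`
  obtain ⟨V, hkV, hV, hVX⟩ := exists_valuationSubring j hj 1
  obtain ⟨V₀, hkV₀, hV₀, hV₀X⟩ := exists_valuationSubring j hj 0
  obtain ⟨ρ', hρint, hρ', hρA'⟩ := exists_normalised_lift V hkV ψ hψ (fun a => by
      have := hV (φ a)
      rwa [hφ1] at this) R'.val.toRingHom hint
  have hρA : ∀ a : A₀, ρ' (g a) = ψ a := fun a => hρA' a (g a) rfl
  obtain ⟨σ', hσ'⟩ := exists_valueHom V₀ hkV₀ ρ' fun r =>
    exists_value V₀ hkV₀ ψ ((algebraMap K k').comp MvPolynomial.constantCoeff) (fun a => by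
      have := hV₀ (φ a)
      rwa [hφ0] at this) (hρint r)
  have hρK : ∀ a : K, ρ' (algebraMap K R' a) = algebraMap k' Ω (algebraMap K k' a) := fun a => by
    rw [← g.commutes, hρA]
    change j (φ (algebraMap K A₀ a)) = _
    rw [φ.commutes, IsScalarTower.algebraMap_apply K k' k'[X]]
    exact j.commutes _
  have hσ'A : ∀ a : A₀, σ' (g a) = algebraMap K k' (MvPolynomial.constantCoeff a) := fun a => by
    refine sub_mem_nonunits_unique V₀ (hσ' (g a)) ?_ hkV₀
    rw [hρA]
    have := hV₀ (φ a)
    rwa [hφ0] at this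
  -- the values at `T = 0` are rational: they are integral over the algebraically closed `K`
  have hσK : ∀ r, σ' r ∈ (algebraMap K k').range := fun r => by
    obtain ⟨p, hp, hpr⟩ := RingHom.IsIntegral.of_finite hgf r
    have hσr : IsIntegral K (σ' r) := by
      refine ⟨p.map MvPolynomial.constantCoeff, hp.map _, ?_⟩
      rw [eval₂_map, show (algebraMap K k').comp MvPolynomial.constantCoeff =
        σ'.comp g.toRingHom from
        RingHom.ext fun a => (hσ'A a).symm, ← hom_eval₂]
      exact (congrArg σ' hpr).trans (map_zero _)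
    exact minpoly.mem_range_of_degree_eq_one K _
      (IsAlgClosed.degree_eq_one_of_irreducible K (minpoly.irreducible hσr))
  obtain ⟨T, hT⟩ := Algebra.FiniteType.out (R := K) (A := R')
  -- the function field of the lifted line: generated by `t = T` and the image of `R'`
  let t : Ω := j X
  let L : IntermediateField k' Ω := adjoin k' (insert t (ρ' '' (T : Set R')))
  have ht : t ∈ L := subset_adjoin k' _ (Set.mem_insert _ _)
  have hρL : ∀ r, ρ' r ∈ L := fun r => by
    have hr : r ∈ Algebra.adjoin K (T : Set R') := hT ▸ trivial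
    induction hr using Algebra.adjoin_induction with
    | mem y hy => exact subset_adjoin k' _ (Set.mem_insert_of_mem _ ⟨y, hy, rfl⟩)
    | algebraMap a => rw [hρK]; exact L.algebraMap_mem _
    | add y z _ _ h1 h2 => rw [map_add]; exact add_mem h1 h2
    | mul y z _ _ h1 h2 => rw [map_mul]; exact mul_mem h1 h2
  have : Algebra.EssFiniteType k' L := essFiniteType_iff.mpr
    (fg_adjoin_of_finite ((T.finite_toSet.image _).insert _))
  let tL : L := ⟨t, ht⟩
  have htL : Transcendental k' tL := fun h => transcendental_X k'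
    ((isAlgebraic_algHom_iff j hj).mp (h.algHom L.val : IsAlgebraic k' (j X)))
  have : Algebra.IsAlgebraic k'⟮tL⟯ L := isAlgebraic_adjoin_gen j hj halg L tL rfl
  obtain ⟨D⟩ := exists_coord tL htL
  let VL := V.comap (algebraMap L Ω)
  let V₀L := V₀.comap (algebraMap L Ω)
  let ρL : R' →+* L := ρ'.codRestrict L hρL
  obtain ⟨σ₀, hσ₀⟩ := exists_algHom_of_range σ' (fun c => by
    rw [← g.commutes, hσ'A, MvPolynomial.algebraMap_eq, MvPolynomial.constantCoeff_C]) hσK
  refine ⟨L, inferInstance, inferInstance, D, ρL.comp σ.rangeRestrict.toRingHom, VL, V₀L,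
    σ₀.comp σ.rangeRestrict, fun a => Subtype.ext ?_, ⟨fun a => hkV a, comap_ne_top j hj ht V 1 hVX,
      fun r => mem_nonunits_comap V _ ?_⟩,
    fun a => hkV₀ a, comap_ne_top j hj ht V₀ 0 hV₀X, fun r => mem_nonunits_comap V₀ _ ?_⟩
  · change ρ' (σ.rangeRestrict (algebraMap K R a)) = _
    rw [AlgHom.commutes, hρK]
    rfl
  · exact hρ' (σ.rangeRestrict r)
  · change ρ' (σ.rangeRestrict r) - algebraMap k' Ω (algebraMap K k' (σ₀ (σ.rangeRestrict r))) ∈ _
    rw [hσ₀]
    exact hσ' (σ.rangeRestrict r)

/-- A point over an extension and some rational point are centres of two places of one function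
field in one variable over the extension. -/
theorem exists_line (σ : R →ₐ[K] k') :
    ∃ (L : Type u) (_ : Field L) (_ : Algebra k' L) (_ : Coord k' L) (ρ : R →+* L)
      (V V₀ : ValuationSubring L) (σ₀ : R →ₐ[K] K),
      (∀ a, ρ (algebraMap K R a) = algebraMap k' L (algebraMap K k' a)) ∧
        ((∀ a, algebraMap k' L a ∈ V) ∧ V ≠ ⊤ ∧ ∀ r, ρ r - algebraMap k' L (σ r) ∈ V.nonunits) ∧
          ((∀ a, algebraMap k' L a ∈ V₀) ∧ V₀ ≠ ⊤ ∧
            ∀ r, ρ r - algebraMap k' L (algebraMap K k' (σ₀ r)) ∈ V₀.nonunits) := by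
  have hinj : Function.Injective (algebraMap k'[X] (AlgebraicClosure (RatFunc k'))) := by
    rw [IsScalarTower.algebraMap_eq k'[X] (RatFunc k') (AlgebraicClosure (RatFunc k'))]
    exact (algebraMap (RatFunc k') (AlgebraicClosure (RatFunc k'))).injective.comp
      (IsFractionRing.injective k'[X] (RatFunc k'))
  have halg : Algebra.IsAlgebraic k'[X] (AlgebraicClosure (RatFunc k')) :=
    (IsFractionRing.comap_isAlgebraic_iff (K := RatFunc k')).mpr inferInstance
  exact exists_line_aux (IsScalarTower.toAlgHom k' k'[X] (AlgebraicClosure (RatFunc k'))) hinj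
    (fun z => (halg.isAlgebraic z).imp fun p hp => hp) σ

end Line

end Fermat.Agent.AbVar.Model

end
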