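import Mathlib.FieldTheory.SeparablyGenerated
import Mathlib.RingTheory.Valuation.LocalSubring
import Mathlib.Tactic

/-!
# The affine charts of the smooth proper model of a function field of one variable
-/

set_option autoImplicit false

universe u

noncomputable section

open Polynomial IntermediateField

namespace Fermat.Agent.AbVar.Model

variable (k : Type u) [Field k] {L : Type u} [Field L] [Algebra k L]

/-- The functions integral over the algebra generated by a set of coordinates. -/
def chart (S : Set L) : Subalgebra k L :=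
  (integralClosure (Algebra.adjoin k S) L).restrictScalars k

theorem mem_chart_iff {S : Set L} {z : L} :
    z ∈ chart k S ↔ IsIntegral (Algebra.adjoin k S) z := Iff.rfl

theorem adjoin_le_chart (S : Set L) : Algebra.adjoin k S ≤ chart k S := fun z hz =>
  (mem_chart_iff k).mpr (isIntegral_algebraMap (x := (⟨z, hz⟩ : Algebra.adjoin k S)))

theorem subset_chart (S : Set L) : S ⊆ (chart k S : Set L) := fun _ hz =>
  adjoin_le_chart k S (Algebra.subset_adjoin hz)

/-- More coordinates give a larger chart. -/
theorem chart_mono {S S' : Set L} (h : S ⊆ S') : chart k S ≤ chart k S' := by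
  intro z hz
  rw [mem_chart_iff] at hz ⊢
  exact hz.map_of_comp_eq (Subalgebra.inclusion (Algebra.adjoin_mono h)).toRingHom (RingHom.id L)
    (by ext; rfl)

/-- The inclusion of charts. -/
abbrev incl {S S' : Set L} (h : S ⊆ S') : chart k S →ₐ[k] chart k S' :=
  Subalgebra.inclusion (chart_mono k h)

variable {k}

theorem exists_pow_mul_mem_adjoin {S : Set L} {s : L} (hs : s ∈ S) (hs0 : s ≠ 0) {z : L}
    (hz : z ∈ Algebra.adjoin k (insert s⁻¹ S)) : ∃ n : ℕ, s ^ n * z ∈ Algebra.adjoin k S := by
  have hsA : s ∈ Algebra.adjoin k S := Algebra.subset_adjoin hs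
  induction hz using Algebra.adjoin_induction with
  | mem y hy =>
    rcases hy with rfl | hy
    · exact ⟨1, by rw [pow_one, mul_inv_cancel₀ hs0]; exact one_mem _⟩
    · exact ⟨0, by rw [pow_zero, one_mul]; exact Algebra.subset_adjoin hy⟩
  | algebraMap a => exact ⟨0, by rw [pow_zero, one_mul]; exact Subalgebra.algebraMap_mem _ a⟩
  | add y z _ _ hy hz =>
    obtain ⟨m, hm⟩ := hy
    obtain ⟨n, hn⟩ := hz
    refine ⟨m + n, ?_⟩
    rw [show s ^ (m + n) * (y + z) = s ^ n * (s ^ m * y) + s ^ m * (s ^ n * z) by ring]
    exact add_mem (mul_mem (pow_mem hsA n) hm) (mul_mem (pow_mem hsA m) hn)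
  | mul y z _ _ hy hz =>
    obtain ⟨m, hm⟩ := hy
    obtain ⟨n, hn⟩ := hz
    refine ⟨m + n, ?_⟩
    rw [show s ^ (m + n) * (y * z) = (s ^ m * y) * (s ^ n * z) by ring]
    exact mul_mem hm hn

theorem exists_pow_mul_mem_chart {S : Set L} {s : L} (hs : s ∈ S) (hs0 : s ≠ 0) {z : L}
    (hz : z ∈ chart k (insert s⁻¹ S)) : ∃ n : ℕ, s ^ n * z ∈ chart k S := by
  obtain ⟨p, hmonic, hroot⟩ := (mem_chart_iff k).mp hz
  choose n hn using fun i => exists_pow_mul_mem_adjoin hs hs0 (p.coeff i).2
  obtain ⟨M, hM⟩ : ∃ M, ∀ i ≤ p.natDegree, n i ≤ M :=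
    ⟨(Finset.range (p.natDegree + 1)).sup n,
      fun i hi => Finset.le_sup (Finset.mem_range.mpr (by omega))⟩
  let q : L[X] := (p.map (algebraMap (Algebra.adjoin k (insert s⁻¹ S)) L)).scaleRoots (s ^ M)
  have hqmonic : q.Monic := (monic_scaleRoots_iff _).mpr (hmonic.map _)
  have hqroot : q.eval (s ^ M * z) = 0 := by
    rw [scaleRoots_eval_mul, eval_map, hroot, mul_zero]
  have hqcoeff : ∀ i, q.coeff i ∈ Algebra.adjoin k S := fun i => by
    rw [coeff_scaleRoots, coeff_map, hmonic.natDegree_map]
    rcases lt_trichotomy i p.natDegree with hi | hi | hi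
    · have hle : n i ≤ M * (p.natDegree - i) :=
        (hM i hi.le).trans (Nat.le_mul_of_pos_right M (by omega))
      rw [← pow_mul, ← Nat.sub_add_cancel hle, pow_add, mul_comm, mul_assoc]
      exact mul_mem (pow_mem (Algebra.subset_adjoin hs) _) (hn i)
    · subst hi
      rw [hmonic.coeff_natDegree, map_one, one_mul, Nat.sub_self, pow_zero]
      exact one_mem _
    · rw [coeff_eq_zero_of_natDegree_lt hi, map_zero, zero_mul]
      exact zero_mem _
  obtain ⟨q', hq', -, hq'monic⟩ := lifts_and_natDegree_eq_and_monic
    ((lifts_iff_coeff_lifts q).mpr fun i => ⟨⟨q.coeff i, hqcoeff i⟩, rfl⟩ :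
      q ∈ lifts (algebraMap (Algebra.adjoin k S) L)) hqmonic
  exact ⟨M, (mem_chart_iff k).mpr ⟨q', hq'monic, by rw [eval₂_eq_eval_map, hq', hqroot]⟩⟩

/-- Adjoining the inverse of a coordinate `s` localises the chart away from `s`. -/
theorem isLocalization_away_incl {S T : Set L} {s : L} (hs : s ∈ S) (hs0 : s ≠ 0) (h : S ⊆ T)
    (hT : T = insert s⁻¹ S) :
    letI := (incl k h).toRingHom.toAlgebra
    IsLocalization.Away (⟨s, subset_chart k S hs⟩ : chart k S) (chart k T) := by
  subst hT
  let := (incl k h).toRingHom.toAlgebra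
  have hu : IsUnit (incl k h ⟨s, subset_chart k S hs⟩) :=
    .of_mul_eq_one ⟨s⁻¹, subset_chart k _ (Set.mem_insert _ _)⟩ (Subtype.ext (mul_inv_cancel₀ hs0))
  refine (isLocalization_iff _ _).mpr ⟨?_, fun z => ?_, fun {a b} hab => ⟨1, ?_⟩⟩
  · rintro ⟨_, n, rfl⟩
    rw [RingHom.algebraMap_toAlgebra, map_pow]
    exact hu.pow n
  · obtain ⟨n, hn⟩ := exists_pow_mul_mem_chart hs hs0 z.2
    exact ⟨(⟨s ^ n * z, hn⟩, ⟨⟨s, subset_chart k S hs⟩ ^ n, n, rfl⟩), Subtype.ext (mul_comm _ _)⟩
  · rw [RingHom.algebraMap_toAlgebra] at hab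
    rw [Subalgebra.inclusion_injective _ hab]

/-- A valuation ring containing the constants and the coordinates contains their chart. -/
theorem algebraMap_mem_of_chart (V : ValuationSubring L) (hk : ∀ a, algebraMap k L a ∈ V)
    {S : Set L} (hS : S ⊆ (V : Set L)) {z : L} (hz : z ∈ chart k S) : z ∈ V := by
  have hA : Algebra.adjoin k S ≤ ({ V.toSubring with algebraMap_mem' := hk } : Subalgebra k L) :=
    Algebra.adjoin_le hS
  have h1 : IsIntegral V z :=
    ((mem_chart_iff k).mp hz).map_of_comp_eq
      ((Algebra.adjoin k S).val.toRingHom.codRestrict V.toSubring fun a => hA a.2) (RingHom.id L)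
      (by ext; rfl)
  obtain ⟨⟨v, hv⟩, rfl⟩ := IsIntegrallyClosed.algebraMap_eq_of_integral (R := V) (K := L) h1
  exact hv

variable (k) (L) in
/-- A separating coordinate on a function field. -/
structure Coord where
  /-- the coordinate -/
  t : L
  transcendental : Transcendental k t
  finite : FiniteDimensional k⟮t⟯ L
  separable : Algebra.IsSeparable k⟮t⟯ L

namespace Coord

/-- A coordinate is nonzero. -/
theorem t_ne_zero (D : Coord k L) : D.t ≠ 0 := fun h =>
  D.transcendental (h ▸ isAlgebraic_zero)

theorem adjoin_inv (t : L) : k⟮t⁻¹⟯ = k⟮t⟯ := by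
  have h1 : k⟮t⁻¹⟯ ≤ k⟮t⟯ := adjoin_simple_le_iff.mpr (inv_mem (mem_adjoin_simple_self k t))
  refine le_antisymm h1 (adjoin_simple_le_iff.mpr ?_)
  simpa using inv_mem (mem_adjoin_simple_self k t⁻¹)

/-- The coordinate at infinity. -/
def flip (D : Coord k L) : Coord k L where
  t := D.t⁻¹
  transcendental h := D.transcendental (by simpa using h.inv)
  finite := by
    have := D.finite
    rw [adjoin_inv]
    infer_instance
  separable := by
    have := D.separable
    rw [adjoin_inv]
    infer_instance

/-- The polynomials in the coordinate. -/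
def polyEquiv (D : Coord k L) : k[X] ≃ₐ[k] Algebra.adjoin k ({D.t} : Set L) :=
  (AlgEquiv.ofInjective (aeval D.t) (transcendental_iff_injective.mp D.transcendental)).trans
    (Subalgebra.equivOfEq _ _ (Algebra.adjoin_singleton_eq_range_aeval k D.t).symm)

variable (D : Coord k L)

theorem not_isField_adjoin : ¬ IsField (Algebra.adjoin k ({D.t} : Set L)) := fun h =>
  Polynomial.not_isField k (MulEquiv.isField h D.polyEquiv.toMulEquiv)

open scoped IntermediateField.algebraAdjoinAdjoin in
theorem chart_props :
    IsDedekindDomain (chart k ({D.t} : Set L)) ∧ IsFractionRing (chart k ({D.t} : Set L)) L ∧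
      Algebra.FiniteType k (chart k ({D.t} : Set L)) ∧ ¬ IsField (chart k ({D.t} : Set L)) := by
  let A := Algebra.adjoin k ({D.t} : Set L)
  have : IsPrincipalIdealRing A :=
    IsPrincipalIdealRing.of_surjective (D.polyEquiv : k[X] →+* A) D.polyEquiv.surjective
  have := D.finite
  have := D.separable
  have h1 : IsDedekindDomain (integralClosure A L) := integralClosure.isDedekindDomain A k⟮D.t⟯ L
  have h2 : IsFractionRing (integralClosure A L) L :=
    integralClosure.isFractionRing_of_finite_extension k⟮D.t⟯ L
  have h3 : Module.Finite A (integralClosure A L) :=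
    IsIntegralClosure.finite A k⟮D.t⟯ L (integralClosure A L)
  have : Algebra.FiniteType k A := .adjoin_of_finite (Set.finite_singleton _)
  have h4 : Algebra.FiniteType k (integralClosure A L) :=
    Algebra.FiniteType.trans (S := A) inferInstance inferInstance
  have h5 : ¬ IsField (integralClosure A L) := fun h =>
    D.not_isField_adjoin (isField_of_isIntegral_of_isField
      (FaithfulSMul.algebraMap_injective A (integralClosure A L)) h)
  exact ⟨h1, h2, h4, h5⟩

/-- The chart of the coordinate is a Dedekind domain. -/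
theorem isDedekindDomain : IsDedekindDomain (chart k ({D.t} : Set L)) := D.chart_props.1

/-- The function field is the fraction field of the chart of the coordinate. -/
theorem isFractionRing : IsFractionRing (chart k ({D.t} : Set L)) L := D.chart_props.2.1

/-- The chart of the coordinate is of finite type over the constants. -/
theorem finiteType : Algebra.FiniteType k (chart k ({D.t} : Set L)) := D.chart_props.2.2.1

/-- The chart of a coordinate is not a field. -/
theorem not_isField : ¬ IsField (chart k ({D.t} : Set L)) := D.chart_props.2.2.2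

end Coord

/-- A function field of one variable over a perfect field has a separating coordinate. -/
theorem exists_coord [PerfectField k] [Algebra.EssFiniteType k L] (t : L) (ht : Transcendental k t)
    [Algebra.IsAlgebraic k⟮t⟯ L] : Nonempty (Coord k L) := by
  obtain ⟨s, hs, hsep⟩ := exists_isTranscendenceBasis_and_isSeparable_of_perfectField k L
  have ht' : IsTranscendenceBasis k (fun _ : Unit => t) := by
    rw [(algebraicIndependent_unique_type_iff.mpr ht).isTranscendenceBasis_iff_isAlgebraic,
      Set.range_const, ← IntermediateField.isAlgebraic_adjoin_iff_top]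
    infer_instance
  have hcard : s.card = 1 := by
    have := hs.lift_cardinalMk_eq ht'
    simpa using this
  obtain ⟨z, rfl⟩ := Finset.card_eq_one.mp hcard
  rw [Finset.coe_singleton] at hsep
  have htz : Transcendental k z := by
    simpa using hs.1.transcendental ⟨z, Finset.mem_singleton_self z⟩
  have : Algebra.EssFiniteType k⟮z⟯ L := .of_comp k _ _
  exact ⟨⟨z, htz, Algebra.finite_of_essFiniteType_of_isAlgebraic, hsep⟩⟩

end Fermat.Agent.AbVar.Model

end
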