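import Mathlib

/-!
# Dedekind algebras over an algebraically closed field are smooth curves
-/

set_option autoImplicit false

universe u

noncomputable section

open Polynomial IsLocalRing

namespace Fermat.Agent.AbVar.Model

variable {k : Type u} [Field k] [IsAlgClosed k] {B : Type u} [CommRing B] [IsDedekindDomain B]
  [Algebra k B] [Algebra.FiniteType k B]

omit [IsDedekindDomain B] in
/-- The value at a maximal ideal. -/
theorem exists_algHom_ker_eq (m : Ideal B) [m.IsMaximal] : ∃ a : B →ₐ[k] k, RingHom.ker a = m := by
  let := Ideal.Quotient.field m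
  have : Algebra.FiniteType k (B ⧸ m) :=
    .of_surjective (Ideal.Quotient.mkₐ k m) Ideal.Quotient.mk_surjective
  have : Module.Finite k (B ⧸ m) := finite_of_finite_type_of_isJacobsonRing k (B ⧸ m)
  let e := AlgEquiv.ofBijective
    (Algebra.ofId k (B ⧸ m)) IsAlgClosed.algebraMap_bijective_of_isIntegral
  refine ⟨e.symm.toAlgHom.comp (Ideal.Quotient.mkₐ k m), ?_⟩
  ext b
  simp [RingHom.mem_ker, Ideal.Quotient.eq_zero_iff_mem]

theorem isStandardSmooth_polynomial (R : Type u) [CommRing R] :
    Algebra.IsStandardSmoothOfRelativeDimension 1 R R[X] := by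
  have hbij : Function.Bijective (MvPolynomial.aeval (R := R) fun _ : Unit => (X : R[X])) := by
    have e : MvPolynomial.aeval (R := R) (fun _ : Unit => (X : R[X])) =
        (MvPolynomial.uniqueAlgEquiv R Unit).toAlgHom := MvPolynomial.algHom_ext fun _ => by simp
    rw [e]
    exact AlgEquiv.bijective _
  let P : Algebra.SubmersivePresentation R R[X] Unit PEmpty.{1} :=
    { toGenerators := .ofSurjective (fun _ => X) hbij.2
      relation := PEmpty.elim
      span_range_relation_eq_ker := by
        rw [Set.range_eq_empty, Ideal.span_empty]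
        exact ((RingHom.injective_iff_ker_eq_bot _).mp hbij.1).symm
      map := PEmpty.elim
      map_inj := fun a => a.elim
      jacobian_isUnit := by
        rw [Algebra.PreSubmersivePresentation.jacobian_eq_jacobiMatrix_det, Matrix.det_isEmpty,
          map_one]
        exact isUnit_one }
  exact ⟨_, _, _, inferInstance, P, by simp [Algebra.Presentation.dimension]⟩

theorem exists_isStandardSmooth_away (hB : ¬ IsField B) (m : Ideal B) [m.IsMaximal] :
    ∃ f ∉ m, Algebra.IsStandardSmoothOfRelativeDimension 1 k (Localization.Away f) := by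
  have hm : m ≠ ⊥ := fun h => hB ((Ring.isField_iff_maximal_bot).mpr (h ▸ ‹m.IsMaximal›))
  have : IsDiscreteValuationRing (Localization.AtPrime m) :=
    IsLocalization.AtPrime.isDiscreteValuationRing_of_dedekind_domain B hm _
  -- A local parameter `π` makes `B` flat and unramified over `k[X]` at `m`, hence étale there.
  obtain ⟨π, hπ, hπ2⟩ : ∃ π ∈ m, π ∉ m ^ 2 := by
    by_contra! h
    have h2 : m ^ 2 < m := by
      simpa using Ideal.pow_right_strictAnti m hm (Ideal.IsMaximal.ne_top inferInstance) one_lt_two
    exact h2.not_ge h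
  have hπ0 : π ≠ 0 := fun h => hπ2 (h ▸ zero_mem _)
  let : Algebra k[X] B := (aeval π).toRingHom.toAlgebra
  have : IsScalarTower k k[X] B :=
    IsScalarTower.of_algebraMap_eq fun a => ((aeval π).commutes a).symm
  have : Algebra.FiniteType k[X] B := .of_restrictScalars_finiteType k k[X] B
  have : Algebra.FinitePresentation k[X] B :=
    (Algebra.FinitePresentation.of_finiteType).mp inferInstance
  obtain ⟨a, ha⟩ := exists_algHom_ker_eq (k := k) m
  have hinj : Function.Injective (algebraMap k[X] B) := by
    refine transcendental_iff_injective.mp fun halg => hπ0 ?_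
    obtain ⟨c, rfl⟩ : π ∈ (algebraMap k B).range :=
      minpoly.mem_range_of_degree_eq_one k π (IsAlgClosed.degree_eq_one_of_irreducible k
        (minpoly.irreducible halg.isIntegral))
    have : a (algebraMap k B c) = 0 := RingHom.mem_ker.mp (ha.symm ▸ hπ : _ ∈ RingHom.ker a)
    rw [AlgHom.commutes] at this
    rw [show c = 0 from this, map_zero]
  have : Module.IsTorsionFree k[X] B := Module.isTorsionFree_iff_algebraMap_injective.mpr hinj
  have : Module.Flat k[X] B := inferInstance
  let p : Ideal k[X] := m.comap (algebraMap k[X] B)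
  have : p.IsPrime := inferInstance
  have : m.LiesOver p := ⟨rfl⟩
  let := Localization.AtPrime.algebraOfLiesOver p m
  have hunr : Algebra.IsUnramifiedAt k[X] m := by
    rw [Algebra.isUnramifiedAt_iff_map_eq k[X] p m]
    constructor
    · have hs : Function.Surjective (algebraMap k[X] m.ResidueField) := fun z => by
        obtain ⟨b, rfl⟩ := Ideal.algebraMap_residueField_surjective m z
        refine ⟨C (a b), ?_⟩
        rw [IsScalarTower.algebraMap_apply k[X] B m.ResidueField, ← sub_eq_zero, ← map_sub,
          Ideal.algebraMap_residueField_eq_zero, ← ha, RingHom.mem_ker]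
        simp [RingHom.algebraMap_toAlgebra]
      rw [IsScalarTower.algebraMap_eq k[X] p.ResidueField m.ResidueField] at hs
      refine ⟨fun z => ?_⟩
      obtain ⟨w, hw⟩ := hs z
      rw [← hw, RingHom.comp_apply]
      exact isSeparable_algebraMap (algebraMap k[X] p.ResidueField w)
    · refine le_antisymm (Ideal.map_le_iff_le_comap.mpr fun q hq => ?_) ?_
      · rw [Ideal.mem_comap, IsScalarTower.algebraMap_apply k[X] B (Localization.AtPrime m),
          ← Localization.AtPrime.map_eq_maximalIdeal]
        exact Ideal.mem_map_of_mem _ hq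
      obtain ⟨J, hJ⟩ : m ∣ Ideal.span {π} :=
        Ideal.dvd_iff_le.mpr ((Ideal.span_singleton_le_iff_mem _).mpr hπ)
      obtain ⟨j, hjJ, hjm⟩ : ∃ j ∈ J, j ∉ m := by
        by_contra! h
        exact hπ2 (pow_two m ▸ Ideal.mul_mono le_rfl h
          (hJ ▸ Ideal.mem_span_singleton_self π))
      have hJt : J.map (algebraMap B (Localization.AtPrime m)) = ⊤ :=
        Ideal.eq_top_of_isUnit_mem _ (Ideal.mem_map_of_mem _ hjJ)
          (IsLocalization.map_units _ (⟨j, hjm⟩ : m.primeCompl))
      have h1 : maximalIdeal (Localization.AtPrime m) = (Ideal.span {π}).map (algebraMap B _) := by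
        rw [hJ, Ideal.map_mul, hJt, Ideal.mul_top, Localization.AtPrime.map_eq_maximalIdeal]
      rw [h1, Ideal.map_span, Set.image_singleton, Ideal.span_singleton_le_iff_mem,
        show π = algebraMap k[X] B X from (aeval_X π).symm, ← IsScalarTower.algebraMap_apply]
      exact Ideal.mem_map_of_mem _ (show X ∈ p by simpa [p, RingHom.algebraMap_toAlgebra] using hπ)
  have : Algebra.IsEtaleAt k[X] m := Algebra.IsEtaleAt.of_isUnramifiedAt_of_flat m
  obtain ⟨f, hf, het⟩ := Algebra.exists_etale_of_isEtaleAt (R := k[X]) m
  refine ⟨f, hf, ?_⟩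
  have : Algebra.IsStandardSmoothOfRelativeDimension 0 k[X] (Localization.Away f) :=
    Algebra.Etale.iff_isStandardSmoothOfRelativeDimension_zero.mp het
  have := isStandardSmooth_polynomial k
  exact Algebra.IsStandardSmoothOfRelativeDimension.trans (n := 1) (m := 0) k k[X] _

/-- A Dedekind domain of finite type over an algebraically closed field that is not a field is
locally standard smooth of relative dimension one. -/
theorem locally_standardSmooth (hB : ¬ IsField B) :
    RingHom.Locally (RingHom.IsStandardSmoothOfRelativeDimension 1) (algebraMap k B) := by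
  refine ⟨{f | Algebra.IsStandardSmoothOfRelativeDimension 1 k (Localization.Away f)}, ?_,
    fun f hf => ?_⟩
  · by_contra h
    obtain ⟨m, hm, hle⟩ := Ideal.exists_le_maximal _ h
    obtain ⟨f, hf, hf'⟩ := exists_isStandardSmooth_away (k := k) hB m
    exact hf (hle (Ideal.subset_span hf'))
  · change RingHom.IsStandardSmoothOfRelativeDimension 1 _
    rw [← IsScalarTower.algebraMap_eq, RingHom.isStandardSmoothOfRelativeDimension_algebraMap]
    exact hf

end Fermat.Agent.AbVar.Model

end
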