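import Fermat.Agent.AbVar.Model.Chart
import Fermat.Agent.AbVar.Model.Smooth

/-!
# The smooth proper model of a function field of one variable

The model `Coord.model` glues the charts at `t` and `1/t`; over an algebraically closed field it is
smooth of relative dimension one and proper (`isProper_modelTo`).
-/

set_option autoImplicit false

universe u

noncomputable section

open CategoryTheory CategoryTheory.Limits AlgebraicGeometry TopologicalSpace

namespace Fermat.Agent.AbVar.Model.Coord

theorem inclusion_comp_algebraMap {k L : Type u} [CommRing k] [CommRing L] [Algebra k L]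
    {A B : Subalgebra k L} (h : A ≤ B) :
    (Subalgebra.inclusion h).toRingHom.comp (algebraMap k A) = algebraMap k B :=
  RingHom.ext fun _ => Subtype.ext rfl

theorem val_comp_inclusion {k L : Type u} [CommRing k] [CommRing L] [Algebra k L]
    {A B : Subalgebra k L} (h : A ≤ B) :
    B.val.toRingHom.comp (Subalgebra.inclusion h).toRingHom = A.val.toRingHom :=
  RingHom.ext fun _ => rfl

theorem val_comp_algebraMap {k L : Type u} [CommRing k] [CommRing L] [Algebra k L]
    (A : Subalgebra k L) :
    A.val.toRingHom.comp (algebraMap k A) = algebraMap k L :=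
  RingHom.ext fun _ => rfl

/-- `Spec` of a composite of ring homomorphisms. -/
theorem specMap_comp {R S T : Type u} [CommRing R] [CommRing S] [CommRing T] (f : S →+* T)
    (g : R →+* S) :
    Spec.map (CommRingCat.ofHom f) ≫ Spec.map (CommRingCat.ofHom g) =
      Spec.map (CommRingCat.ofHom (f.comp g)) := by
  rw [← Spec.map_comp, ← CommRingCat.ofHom_comp]

variable {k : Type u} [Field k] {L : Type u} [Field L] [Algebra k L] (D : Coord k L)

/-! ### The two charts and the gluing -/

/-- The finite chart. -/
abbrev BFin : Subalgebra k L := chart k ({D.t} : Set L)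

/-- The chart at infinity. -/
abbrev BInf : Subalgebra k L := chart k ({D.t⁻¹} : Set L)

/-- The overlap. -/
abbrev BMid : Subalgebra k L := chart k ({D.t, D.t⁻¹} : Set L)

theorem fin_subset : ({D.t} : Set L) ⊆ {D.t, D.t⁻¹} :=
  Set.singleton_subset_iff.mpr (Set.mem_insert _ _)

theorem inf_subset : ({D.t⁻¹} : Set L) ⊆ {D.t, D.t⁻¹} :=
  Set.singleton_subset_iff.mpr (Set.mem_insert_of_mem _ rfl)

/-- The coordinate in its chart. -/
def tFin : D.BFin := ⟨D.t, subset_chart k _ rfl⟩

/-- The inverse coordinate in its chart. -/
def tInf : D.BInf := ⟨D.t⁻¹, subset_chart k _ rfl⟩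

/-- The restriction from the finite chart. -/
abbrev inclFin : D.BFin →ₐ[k] D.BMid := incl k D.fin_subset

/-- The restriction from the chart at infinity. -/
abbrev inclInf : D.BInf →ₐ[k] D.BMid := incl k D.inf_subset

theorem inclFin_mul_inclInf : D.inclFin D.tFin * D.inclInf D.tInf = 1 :=
  Subtype.ext (mul_inv_cancel₀ D.t_ne_zero)

theorem isLocalization_fin :
    letI := D.inclFin.toRingHom.toAlgebra
    IsLocalization.Away D.tFin D.BMid :=
  isLocalization_away_incl (Set.mem_singleton _) D.t_ne_zero D.fin_subset (Set.pair_comm _ _)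

theorem isLocalization_inf :
    letI := D.inclInf.toRingHom.toAlgebra
    IsLocalization.Away D.tInf D.BMid :=
  isLocalization_away_incl (Set.mem_singleton _) (inv_ne_zero D.t_ne_zero) D.inf_subset
    (by rw [inv_inv])

/-- The finite chart as a scheme. -/
abbrev XFin : Scheme.{u} := Spec (CommRingCat.of D.BFin)

/-- The chart at infinity as a scheme. -/
abbrev XInf : Scheme.{u} := Spec (CommRingCat.of D.BInf)

/-- The overlap as a scheme. -/
abbrev XMid : Scheme.{u} := Spec (CommRingCat.of D.BMid)

/-- The inclusion of the overlap in the finite chart. -/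
abbrev fFin : D.XMid ⟶ D.XFin := Spec.map (CommRingCat.ofHom D.inclFin.toRingHom)

/-- The inclusion of the overlap in the chart at infinity. -/
abbrev fInf : D.XMid ⟶ D.XInf := Spec.map (CommRingCat.ofHom D.inclInf.toRingHom)

instance isOpenImmersion_fFin : IsOpenImmersion D.fFin := by
  let := D.inclFin.toRingHom.toAlgebra
  have := D.isLocalization_fin
  exact IsOpenImmersion.of_isLocalization D.tFin

instance isOpenImmersion_fInf : IsOpenImmersion D.fInf := by
  let := D.inclInf.toRingHom.toAlgebra
  have := D.isLocalization_inf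
  exact IsOpenImmersion.of_isLocalization D.tInf

/-- The model. -/
def model : Scheme.{u} := pushout D.fFin D.fInf

/-- The finite chart of the model. -/
def ιFin : D.XFin ⟶ D.model := pushout.inl D.fFin D.fInf

/-- The chart at infinity of the model. -/
def ιInf : D.XInf ⟶ D.model := pushout.inr D.fFin D.fInf

theorem glue : D.fFin ≫ D.ιFin = D.fInf ≫ D.ιInf := pushout.condition

instance isOpenImmersion_ιFin : IsOpenImmersion D.ιFin :=
  (Scheme.IsLocallyDirected.openCover (span D.fFin D.fInf)).map_prop WalkingSpan.left

instance isOpenImmersion_ιInf : IsOpenImmersion D.ιInf :=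
  (Scheme.IsLocallyDirected.openCover (span D.fFin D.fInf)).map_prop WalkingSpan.right

theorem mem_range_or (x : D.model) : x ∈ Set.range D.ιFin ∨ x ∈ Set.range D.ιInf := by
  obtain ⟨i, y, hy⟩ := (Scheme.IsLocallyDirected.openCover (span D.fFin D.fInf)).exists_eq x
  rcases i with (_ | _ | _)
  · have hw : (Scheme.IsLocallyDirected.openCover (span D.fFin D.fInf)).f none = D.fFin ≫ D.ιFin :=
      (colimit.w (span D.fFin D.fInf) WalkingSpan.Hom.fst).symm
    exact Or.inl ⟨D.fFin y, by rw [← hy, hw]; rfl⟩
  · exact Or.inl ⟨y, hy⟩
  · exact Or.inr ⟨y, hy⟩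

theorem exists_of_ι_eq {a : D.XFin} {b : D.XInf} (h : D.ιFin a = D.ιInf b) :
    ∃ m : D.XMid, D.fFin m = a ∧ D.fInf m = b := by
  obtain ⟨i, fi, fj, m, hi, hj⟩ := (Scheme.IsLocallyDirected.ι_eq_ι_iff (span D.fFin D.fInf)
    (i := WalkingSpan.left) (j := WalkingSpan.right)).mp h
  rcases i with (_ | _ | _)
  · obtain rfl : fi = WalkingSpan.Hom.fst := Subsingleton.elim _ _
    obtain rfl : fj = WalkingSpan.Hom.snd := Subsingleton.elim _ _
    exact ⟨m, hi, hj⟩
  · exact (WidePushoutShape.Hom.casesOn (motive := fun a b _ =>
      a = some WalkingPair.left → b = some WalkingPair.right → False) fj (fun _ h1 h2 => by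
        rw [h1] at h2; cases h2) (fun _ h1 _ => by cases h1) rfl rfl).elim
  · exact (WidePushoutShape.Hom.casesOn (motive := fun a b _ =>
      a = some WalkingPair.right → b = some WalkingPair.left → False) fi (fun _ h1 h2 => by
        rw [h1] at h2; cases h2) (fun _ h1 _ => by cases h1) rfl rfl).elim

/-- The open cover of the model by its two charts. -/
def cover : D.model.OpenCover :=
  Scheme.openCoverOfIsOpenCover D.model ![D.ιFin.opensRange, D.ιInf.opensRange] (by
    rw [TopologicalSpace.IsOpenCover, ← top_le_iff]
    intro x _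
    rcases D.mem_range_or x with h | h
    · exact Opens.mem_iSup.mpr ⟨0, h⟩
    · exact Opens.mem_iSup.mpr ⟨1, h⟩)

/-! ### Structure map and generic point -/

theorem inclFin_comp_algebraMap :
    D.inclFin.toRingHom.comp (algebraMap k D.BFin) = algebraMap k D.BMid :=
  inclusion_comp_algebraMap (chart_mono k D.fin_subset)

theorem inclInf_comp_algebraMap :
    D.inclInf.toRingHom.comp (algebraMap k D.BInf) = algebraMap k D.BMid :=
  inclusion_comp_algebraMap (chart_mono k D.inf_subset)

/-- The structure morphism. -/
def modelTo : D.model ⟶ Spec (CommRingCat.of k) :=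
  pushout.desc (Spec.map (CommRingCat.ofHom (algebraMap k D.BFin)))
    (Spec.map (CommRingCat.ofHom (algebraMap k D.BInf))) (by
      rw [specMap_comp, specMap_comp, inclFin_comp_algebraMap, inclInf_comp_algebraMap])

/-- On the finite chart the structure map of the model is induced by the inclusion of the
constants. -/
theorem ιFin_modelTo : D.ιFin ≫ D.modelTo = Spec.map (CommRingCat.ofHom (algebraMap k D.BFin)) :=
  pushout.inl_desc _ _ _

/-- On the chart at infinity the structure map of the model is induced by the inclusion of the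
constants. -/
theorem ιInf_modelTo : D.ιInf ≫ D.modelTo = Spec.map (CommRingCat.ofHom (algebraMap k D.BInf)) :=
  pushout.inr_desc _ _ _

/-- The generic point of the model, as a point with values in the function field. -/
def gen : Spec (CommRingCat.of L) ⟶ D.model :=
  Spec.map (CommRingCat.ofHom D.BMid.val.toRingHom) ≫ D.fFin ≫ D.ιFin

theorem val_comp_incl {S S' : Set L} (h : S ⊆ S') :
    (chart k S').val.toRingHom.comp (incl k h).toRingHom = (chart k S).val.toRingHom :=
  val_comp_inclusion (chart_mono k h)

/-- The generic point factors through the finite chart. -/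
theorem gen_eq_fin : D.gen = Spec.map (CommRingCat.ofHom D.BFin.val.toRingHom) ≫ D.ιFin := by
  rw [gen, ← Category.assoc, specMap_comp, val_comp_incl]

/-- The generic point factors through the chart at infinity. -/
theorem gen_eq_inf : D.gen = Spec.map (CommRingCat.ofHom D.BInf.val.toRingHom) ≫ D.ιInf := by
  rw [gen, D.glue, ← Category.assoc, specMap_comp, val_comp_incl]

/-- The generic point of the model lies over the base field. -/
theorem gen_modelTo : D.gen ≫ D.modelTo = Spec.map (CommRingCat.ofHom (algebraMap k L)) := by
  rw [gen_eq_fin, Category.assoc, ιFin_modelTo, specMap_comp]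
  exact congrArg (fun r => Spec.map (CommRingCat.ofHom r)) (val_comp_algebraMap D.BFin)

theorem isPreimmersion_val :
    IsPreimmersion (Spec.map (CommRingCat.ofHom D.BFin.val.toRingHom)) := by
  have : IsFractionRing D.BFin L := D.isFractionRing
  exact IsPreimmersion.of_isLocalization (R := CommRingCat.of D.BFin) (S := L)
    (nonZeroDivisors D.BFin)

instance isPreimmersion_gen : IsPreimmersion D.gen := by
  have := D.isPreimmersion_val
  rw [gen_eq_fin]
  infer_instance

theorem specializes_fin (a : D.XFin) : D.gen default ⤳ D.ιFin a := by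
  have h : (Spec.map (CommRingCat.ofHom D.BFin.val.toRingHom)) default =
      (⊥ : PrimeSpectrum D.BFin) := by
    apply PrimeSpectrum.ext
    change RingHom.ker _ = ⊥
    exact (RingHom.injective_iff_ker_eq_bot _).mp Subtype.val_injective
  rw [gen_eq_fin, Scheme.Hom.comp_apply, h]
  exact ((PrimeSpectrum.le_iff_specializes _ _).mp bot_le).map D.ιFin.continuous

theorem specializes_inf (a : D.XInf) : D.gen default ⤳ D.ιInf a := by
  have h : (Spec.map (CommRingCat.ofHom D.BInf.val.toRingHom)) default =
      (⊥ : PrimeSpectrum D.BInf) := by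
    apply PrimeSpectrum.ext
    change RingHom.ker _ = ⊥
    exact (RingHom.injective_iff_ker_eq_bot _).mp Subtype.val_injective
  rw [gen_eq_inf, Scheme.Hom.comp_apply, h]
  exact ((PrimeSpectrum.le_iff_specializes _ _).mp bot_le).map D.ιInf.continuous

instance irreducibleSpace_model : IrreducibleSpace D.model := by
  have h : closure ({D.gen default} : Set D.model) = Set.univ := by
    refine Set.eq_univ_iff_forall.mpr fun x => ?_
    rcases D.mem_range_or x with ⟨a, rfl⟩ | ⟨a, rfl⟩
    · exact (D.specializes_fin a).mem_closure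
    · exact (D.specializes_inf a).mem_closure
  have h2 := (isIrreducible_singleton (x := D.gen default)).closure
  rw [h] at h2
  exact { isPreirreducible_univ := h2.2, toNonempty := ⟨D.gen default⟩ }

/-- The generic point of the model is the point of the function field. -/
theorem genericPoint_model : genericPoint D.model = D.gen default := by
  refine IsGenericPoint.eq (genericPoint_spec _) ?_
  refine Set.eq_univ_iff_forall.mpr fun x => ?_
  rcases D.mem_range_or x with ⟨a, rfl⟩ | ⟨a, rfl⟩
  · exact (D.specializes_fin a).mem_closure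
  · exact (D.specializes_inf a).mem_closure

instance isReduced_model : IsReduced D.model := by
  have : ∀ i : Fin 2, IsReduced (D.cover.X i) := fun i => by
    match i with
    | 0 =>
      have h : IsOpenImmersion D.ιFin.isoOpensRange.inv := IsOpenImmersion.of_isIso _
      exact @isReduced_of_isOpenImmersion _ _ D.ιFin.isoOpensRange.inv h _
    | 1 =>
      have h : IsOpenImmersion D.ιInf.isoOpensRange.inv := IsOpenImmersion.of_isIso _
      exact @isReduced_of_isOpenImmersion _ _ D.ιInf.isoOpensRange.inv h _
  have : ∀ i, IsReduced (D.cover.X i) := this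
  exact IsReduced.of_openCover _ D.cover

instance isIntegral_model : IsIntegral D.model := isIntegral_of_irreducibleSpace_of_isReduced _

instance compactSpace_model : CompactSpace D.model := by
  refine ⟨?_⟩
  have h : (Set.univ : Set D.model) = Set.range D.ιFin ∪ Set.range D.ιInf :=
    (Set.eq_univ_iff_forall.mpr D.mem_range_or).symm
  rw [h]
  exact (isCompact_range D.ιFin.continuous).union (isCompact_range D.ιInf.continuous)

/-! ### Smoothness -/

section AlgClosed

variable [IsAlgClosed k]

theorem smooth_fin :
    SmoothOfRelativeDimension 1 (Spec.map (CommRingCat.ofHom (algebraMap k D.BFin))) := by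
  have := D.isDedekindDomain
  have := D.finiteType
  rw [HasRingHomProperty.Spec_iff (P := @SmoothOfRelativeDimension 1)]
  exact locally_standardSmooth D.not_isField

instance smoothOfRelativeDimension_modelTo : SmoothOfRelativeDimension 1 D.modelTo := by
  have : IsZariskiLocalAtSource (@SmoothOfRelativeDimension 1 : MorphismProperty Scheme.{u}) :=
    HasRingHomProperty.instIsZariskiLocalAtSource
      (Q := RingHom.Locally (RingHom.IsStandardSmoothOfRelativeDimension 1))
  refine (IsZariskiLocalAtSource.iff_of_openCover (P := @SmoothOfRelativeDimension 1) D.cover).mpr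
    fun (i : Fin 2) => ?_
  match i with
  | 0 =>
    change SmoothOfRelativeDimension 1 (D.ιFin.opensRange.ι ≫ D.modelTo)
    rw [← Scheme.Hom.isoOpensRange_inv_comp, Category.assoc, ιFin_modelTo]
    have : IsOpenImmersion D.ιFin.isoOpensRange.inv := IsOpenImmersion.of_isIso _
    exact IsZariskiLocalAtSource.comp D.smooth_fin _
  | 1 =>
    change SmoothOfRelativeDimension 1 (D.ιInf.opensRange.ι ≫ D.modelTo)
    rw [← Scheme.Hom.isoOpensRange_inv_comp, Category.assoc, ιInf_modelTo]
    have : IsOpenImmersion D.ιInf.isoOpensRange.inv := IsOpenImmersion.of_isIso _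
    have h : SmoothOfRelativeDimension 1 (Spec.map (CommRingCat.ofHom (algebraMap k D.BInf))) :=
      D.flip.smooth_fin
    exact IsZariskiLocalAtSource.comp h _

instance quasiCompact_modelTo : QuasiCompact D.modelTo :=
  (quasiCompact_iff_compactSpace _).mpr inferInstance

instance quasiSeparated_modelTo : QuasiSeparated D.modelTo := by
  have : Smooth D.modelTo := SmoothOfRelativeDimension.smooth 1 D.modelTo
  have := LocallyOfFiniteType.isLocallyNoetherian D.modelTo
  infer_instance

/-! ### The valuative criterion and properness -/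

omit [IsAlgClosed k] in
theorem range_subset {V : Type u} [CommRing V] [IsDomain V] [ValuationRing V] {U : D.model.Opens}
    {l : Spec (CommRingCat.of V) ⟶ D.model} (h : l (IsLocalRing.closedPoint V) ∈ U) :
    Set.range l ⊆ U := by
  rintro _ ⟨v, rfl⟩
  exact ((IsLocalRing.specializes_closedPoint v).map l.continuous).mem_open U.2 h

omit [IsAlgClosed k] in
/-- A homomorphism from a chart to the fraction field of a valuation ring takes its values in that
ring if it does so on the coordinates and the constants. -/
theorem exists_lift {S : Set L} {V F : Type u} [CommRing V] [IsDomain V] [ValuationRing V] [Field F]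
    [Algebra V F] [IsFractionRing V F] (h : chart k S →+* F) (g : k →+* V)
    (hg : h.comp (algebraMap k (chart k S)) = (algebraMap V F).comp g)
    (hS : ∀ (s : L) (hs : s ∈ S), h ⟨s, subset_chart k S hs⟩ ∈ (algebraMap V F).range) :
    ∃ h' : chart k S →+* V, (algebraMap V F).comp h' = h ∧
      h'.comp (algebraMap k (chart k S)) = g := by
  have hinj : Function.Injective (algebraMap V F) := IsFractionRing.injective V F
  -- The algebra generated by the coordinates maps into `V`.
  have hA : ∀ a : Algebra.adjoin k S,
      h ⟨a.1, adjoin_le_chart k S a.2⟩ ∈ (algebraMap V F).range := by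
    rintro ⟨a, ha⟩
    induction ha using Algebra.adjoin_induction with
    | mem y hy => exact hS y hy
    | algebraMap c => exact ⟨g c, (RingHom.congr_fun hg c).symm⟩
    | add y z hy hz h1 h2 =>
      convert add_mem h1 h2 using 1
      exact map_add h ⟨y, adjoin_le_chart k S hy⟩ ⟨z, adjoin_le_chart k S hz⟩
    | mul y z hy hz h1 h2 =>
      convert mul_mem h1 h2 using 1
      exact map_mul h ⟨y, adjoin_le_chart k S hy⟩ ⟨z, adjoin_le_chart k S hz⟩
  -- The chart is integral over it and `V` is integrally closed.
  have hmem : ∀ b, h b ∈ (algebraMap V F).range := fun b => by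
    let r : Algebra.adjoin k S →+* chart k S :=
      (Subalgebra.inclusion (adjoin_le_chart k S)).toRingHom
    have hb : r.IsIntegralElem b := by
      obtain ⟨p, hp, hpb⟩ := (mem_chart_iff k).mp b.2
      refine ⟨p, hp, Subtype.val_injective ?_⟩
      change (chart k S).val.toRingHom (p.eval₂ r b) = 0
      rw [Polynomial.hom_eval₂]
      exact hpb
    let r' : Algebra.adjoin k S →+* (algebraMap V F).range := (h.comp r).codRestrict _ hA
    obtain ⟨p, hp, hpb⟩ := hb
    have h1 : IsIntegral (algebraMap V F).range (h b) := by
      refine ⟨p.map r', hp.map _, ?_⟩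
      rw [Polynomial.eval₂_map]
      have := congrArg h hpb
      rw [Polynomial.hom_eval₂, map_zero] at this
      exact this
    have h2 : IsIntegral V (h b) := h1.map_of_comp_eq
      (RingEquiv.ofBijective (algebraMap V F).rangeRestrict
        ⟨fun x y e => hinj (congrArg Subtype.val e),
          (algebraMap V F).rangeRestrict_surjective⟩).symm.toRingHom
      (RingHom.id F) (by
        refine RingHom.ext fun x => ?_
        obtain ⟨v, rfl⟩ := (algebraMap V F).rangeRestrict_surjective x
        simp only [RingHom.comp_apply, RingEquiv.toRingHom_eq_coe, RingHom.coe_coe,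
          RingHom.id_apply]
        exact congrArg _ (RingEquiv.symm_apply_apply _ v))
    exact IsIntegrallyClosed.algebraMap_eq_of_integral h2
  choose h' hh' using hmem
  let H : chart k S →+* V :=
    { toFun := h'
      map_one' := hinj (by rw [hh', map_one, map_one])
      map_mul' := fun a b => hinj (by rw [hh', map_mul, map_mul, hh', hh'])
      map_zero' := hinj (by rw [hh', map_zero, map_zero])
      map_add' := fun a b => hinj (by rw [hh', map_add, map_add, hh', hh']) }
  exact ⟨H, RingHom.ext hh', RingHom.ext fun c => hinj ((hh' _).trans (RingHom.congr_fun hg c))⟩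

omit [IsAlgClosed k] in
/-- A valuative square whose generic point factors through a chart lifts if the values of the
generators of the chart are integral. -/
private theorem hasLift_of_chart (S : ValuativeCommSq D.modelTo) {T : Set L}
    (ι : Spec (CommRingCat.of (chart k T)) ⟶ D.model)
    (hι : ι ≫ D.modelTo = Spec.map (CommRingCat.ofHom (algebraMap k (chart k T))))
    (h : chart k T →+* S.K) (hh : S.i₁ = Spec.map (CommRingCat.ofHom h) ≫ ι)
    (hT : ∀ (s : L) (hs : s ∈ T), h ⟨s, subset_chart k T hs⟩ ∈ (algebraMap S.R S.K).range) :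
    S.commSq.HasLift := by
  let g : k →+* S.R := (Spec.preimage S.i₂).hom
  have hconst : Spec.map (CommRingCat.ofHom (h.comp (algebraMap k (chart k T)))) =
      Spec.map (CommRingCat.ofHom ((algebraMap S.R S.K).comp g)) := by
    rw [CommRingCat.ofHom_comp, CommRingCat.ofHom_comp, Spec.map_comp, Spec.map_comp, ← hι,
      ← Category.assoc, ← hh, S.commSq.w]
    congr 1
    exact (Spec.map_preimage _).symm
  obtain ⟨h', hK, hk⟩ :=
    exists_lift h g (congrArg CommRingCat.Hom.hom (Spec.map_injective hconst)) hT
  refine CommSq.HasLift.mk' ⟨Spec.map (CommRingCat.ofHom h') ≫ ι, ?_, ?_⟩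
  · rw [← Category.assoc, ← Spec.map_comp, ← CommRingCat.ofHom_comp, hK, hh]
  · rw [Category.assoc, hι, ← Spec.map_comp, ← CommRingCat.ofHom_comp, hk]
    exact Spec.map_preimage _

omit [IsAlgClosed k] in
/-- A generic point in the range of a chart factors through it. -/
private theorem exists_factor (S : ValuativeCommSq D.modelTo) {T : Set L}
    (ι : Spec (CommRingCat.of (chart k T)) ⟶ D.model) [IsOpenImmersion ι]
    (hx : S.i₁ default ∈ Set.range ι) :
    ∃ h : chart k T →+* S.K, S.i₁ = Spec.map (CommRingCat.ofHom h) ≫ ι := by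
  have hr : Set.range S.i₁ ⊆ Set.range ι := by
    rintro _ ⟨p, rfl⟩
    rwa [Subsingleton.elim p default]
  exact ⟨(Spec.preimage (IsOpenImmersion.lift ι S.i₁ hr)).hom, by
    rw [CommRingCat.ofHom_hom, Spec.map_preimage, IsOpenImmersion.lift_fac]⟩

omit [IsAlgClosed k] in
/-- A square with generic point in the overlap lifts: one of `t` and `t⁻¹` has integral value. -/
private theorem hasLift_of_mid (S : ValuativeCommSq D.modelTo) (m : D.BMid →+* S.K)
    (hm : S.i₁ = Spec.map (CommRingCat.ofHom m) ≫ D.fFin ≫ D.ιFin) : S.commSq.HasLift := by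
  have hf : S.i₁ = Spec.map (CommRingCat.ofHom (m.comp D.inclFin.toRingHom)) ≫ D.ιFin := by
    rw [CommRingCat.ofHom_comp, Spec.map_comp, Category.assoc]; exact hm
  have hi : S.i₁ = Spec.map (CommRingCat.ofHom (m.comp D.inclInf.toRingHom)) ≫ D.ιInf := by
    rw [CommRingCat.ofHom_comp, Spec.map_comp, Category.assoc, ← D.glue]; exact hm
  have hmul : m (D.inclFin D.tFin) * m (D.inclInf D.tInf) = 1 := by
    rw [← map_mul, inclFin_mul_inclInf, map_one]
  rcases ValuationRing.isInteger_or_isInteger S.R (m (D.inclFin D.tFin)) with h | h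
  · exact hasLift_of_chart D S D.ιFin D.ιFin_modelTo _ hf fun s hs => by
      obtain rfl : s = D.t := hs
      exact h
  · exact hasLift_of_chart D S D.ιInf D.ιInf_modelTo _ hi fun s hs => by
      obtain rfl : s = D.t⁻¹ := hs
      rw [inv_eq_of_mul_eq_one_right hmul] at h
      exact h

omit [IsAlgClosed k] in
/-- The model satisfies the existence part of the valuative criterion. -/
theorem existence : ValuativeCriterion.Existence D.modelTo := by
  intro S
  -- in the chart of the generic point either the coordinate is integral, or it is invertible and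
  -- the point lies in the overlap
  rcases D.mem_range_or (S.i₁ default) with hx | hx
  · obtain ⟨h, hh⟩ := exists_factor D S D.ιFin hx
    by_cases ht : h D.tFin ∈ (algebraMap S.R S.K).range
    · exact hasLift_of_chart D S D.ιFin D.ιFin_modelTo h hh fun s hs => by
        obtain rfl : s = D.t := hs
        exact ht
    · have h0 : h D.tFin ≠ 0 := fun e => ht (e ▸ zero_mem _)
      let := D.inclFin.toRingHom.toAlgebra
      have := D.isLocalization_fin
      refine hasLift_of_mid D S (IsLocalization.Away.lift D.tFin (isUnit_iff_ne_zero.mpr h0)) ?_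
      rw [hh, ← Category.assoc, ← Spec.map_comp, ← CommRingCat.ofHom_comp]
      exact congrArg (fun r => Spec.map (CommRingCat.ofHom r) ≫ D.ιFin)
        (IsLocalization.Away.lift_comp D.tFin (isUnit_iff_ne_zero.mpr h0)).symm
  · obtain ⟨h, hh⟩ := exists_factor D S D.ιInf hx
    by_cases ht : h D.tInf ∈ (algebraMap S.R S.K).range
    · exact hasLift_of_chart D S D.ιInf D.ιInf_modelTo h hh fun s hs => by
        obtain rfl : s = D.t⁻¹ := hs
        exact ht
    · have h0 : h D.tInf ≠ 0 := fun e => ht (e ▸ zero_mem _)
      let := D.inclInf.toRingHom.toAlgebra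
      have := D.isLocalization_inf
      refine hasLift_of_mid D S (IsLocalization.Away.lift D.tInf (isUnit_iff_ne_zero.mpr h0)) ?_
      rw [hh, D.glue, ← Category.assoc, ← Spec.map_comp, ← CommRingCat.ofHom_comp]
      exact congrArg (fun r => Spec.map (CommRingCat.ofHom r) ≫ D.ιInf)
        (IsLocalization.Away.lift_comp D.tInf (isUnit_iff_ne_zero.mpr h0)).symm

omit [IsAlgClosed k] in
/-- Two points over `S.R` in the same chart agreeing at the generic point are equal. -/
private theorem eq_of_mem_chart (S : ValuativeCommSq D.modelTo) {T : Set L}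
    (ι : Spec (CommRingCat.of (chart k T)) ⟶ D.model) [IsOpenImmersion ι]
    {a b : Spec (CommRingCat.of S.R) ⟶ D.model}
    (e : Spec.map (CommRingCat.ofHom (algebraMap S.R S.K)) ≫ a =
      Spec.map (CommRingCat.ofHom (algebraMap S.R S.K)) ≫ b)
    (ha : a (IsLocalRing.closedPoint S.R) ∈ Set.range ι)
    (hb : b (IsLocalRing.closedPoint S.R) ∈ Set.range ι) : a = b := by
  have hinj : Function.Injective (algebraMap S.R S.K) := IsFractionRing.injective S.R S.K
  have ha' := range_subset D (U := ι.opensRange) ha
  have hb' := range_subset D (U := ι.opensRange) hb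
  rw [← IsOpenImmersion.lift_fac ι a ha', ← IsOpenImmersion.lift_fac ι b hb'] at e ⊢
  rw [← Category.assoc, ← Category.assoc, cancel_mono] at e
  congr 1
  obtain ⟨φ, hφ⟩ := Spec.map_surjective (IsOpenImmersion.lift ι a ha')
  obtain ⟨ψ, hψ⟩ := Spec.map_surjective (IsOpenImmersion.lift ι b hb')
  rw [← hφ, ← hψ, ← Spec.map_comp, ← Spec.map_comp] at e
  rw [← hφ, ← hψ]
  congr 1
  ext z
  exact hinj (ConcreteCategory.congr_hom (Spec.map_injective e) z)

omit [IsAlgClosed k] in
/-- If two points agreeing at the generic point specialise into the two charts, the coordinate is a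
unit along the first, which thus specialises into the chart at infinity too. -/
private theorem mem_range_ιInf_of_mixed (S : ValuativeCommSq D.modelTo)
    {a b : Spec (CommRingCat.of S.R) ⟶ D.model}
    (e : Spec.map (CommRingCat.ofHom (algebraMap S.R S.K)) ≫ a =
      Spec.map (CommRingCat.ofHom (algebraMap S.R S.K)) ≫ b)
    (ha : a (IsLocalRing.closedPoint S.R) ∈ Set.range D.ιFin)
    (hb : b (IsLocalRing.closedPoint S.R) ∈ Set.range D.ιInf) :
    a (IsLocalRing.closedPoint S.R) ∈ Set.range D.ιInf := by
  have hinj : Function.Injective (algebraMap S.R S.K) := IsFractionRing.injective S.R S.K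
  have ha' := range_subset D (U := D.ιFin.opensRange) ha
  have hb' := range_subset D (U := D.ιInf.opensRange) hb
  -- Both extensions factor through their charts, by ring maps `φ` and `ψ`.
  obtain ⟨φ, hφ⟩ := Spec.map_surjective (IsOpenImmersion.lift D.ιFin a ha')
  obtain ⟨ψ, hψ⟩ := Spec.map_surjective (IsOpenImmersion.lift D.ιInf b hb')
  have hA : Spec.map φ ≫ D.ιFin = a := hφ ▸ IsOpenImmersion.lift_fac _ _ _
  have hB : Spec.map ψ ≫ D.ιInf = b := hψ ▸ IsOpenImmersion.lift_fac _ _ _
  let e₀ := Spec.map (CommRingCat.ofHom (algebraMap S.R S.K))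
  obtain ⟨m, hm, -⟩ := D.exists_of_ι_eq (a := (e₀ ≫ Spec.map φ) default)
    (b := (e₀ ≫ Spec.map ψ) default) (by
      rw [← Scheme.Hom.comp_apply, ← Scheme.Hom.comp_apply, Category.assoc, Category.assoc,
        hA, hB, e])
  have hr : Set.range (e₀ ≫ Spec.map φ) ⊆ Set.range D.fFin := by
    rintro _ ⟨p, rfl⟩
    rw [Subsingleton.elim p default]
    exact ⟨m, hm⟩
  -- The generic point lies in both charts, so `φ t * ψ t⁻¹ = 1`.
  obtain ⟨μ, hμ⟩ := Spec.map_surjective (IsOpenImmersion.lift D.fFin (e₀ ≫ Spec.map φ) hr)
  have h1 : Spec.map μ ≫ D.fFin = e₀ ≫ Spec.map φ := hμ ▸ IsOpenImmersion.lift_fac _ _ _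
  have h2 : Spec.map μ ≫ D.fInf = e₀ ≫ Spec.map ψ := by
    rw [← cancel_mono D.ιInf, Category.assoc, ← D.glue, ← Category.assoc, h1, Category.assoc, hA,
      Category.assoc, hB]
    exact e
  rw [← Spec.map_comp, ← Spec.map_comp] at h1 h2
  have u1 : μ (D.inclFin D.tFin) = algebraMap S.R S.K (φ D.tFin) :=
    ConcreteCategory.congr_hom (Spec.map_injective h1) D.tFin
  have u2 : μ (D.inclInf D.tInf) = algebraMap S.R S.K (ψ D.tInf) :=
    ConcreteCategory.congr_hom (Spec.map_injective h2) D.tInf
  have hu : φ D.tFin * ψ D.tInf = 1 := hinj (by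
    rw [map_mul, map_one, ← u1, ← u2, ← map_mul, inclFin_mul_inclInf, map_one])
  let := D.inclFin.toRingHom.toAlgebra
  have := D.isLocalization_fin
  -- Thus `φ` factors through the overlap, and `a` through the chart at infinity.
  have hu' : IsUnit (φ.hom D.tFin) := .of_mul_eq_one _ hu
  have hlift : Spec.map (CommRingCat.ofHom (IsLocalization.Away.lift D.tFin hu')) ≫ D.fFin =
      Spec.map φ := by
    rw [← Spec.map_comp, ← CommRingCat.ofHom_comp]
    exact congrArg (fun r => Spec.map (CommRingCat.ofHom r))
      (IsLocalization.Away.lift_comp D.tFin hu')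
  let μ' := Spec.map (CommRingCat.ofHom (IsLocalization.Away.lift D.tFin hu')) ≫ D.fInf
  have hμ' : μ' ≫ D.ιInf = a := by
    rw [Category.assoc, ← D.glue, ← Category.assoc, hlift, hA]
  exact ⟨μ' (IsLocalRing.closedPoint S.R), by rw [← hμ']; rfl⟩

omit [IsAlgClosed k] in
/-- The model satisfies the uniqueness part of the valuative criterion. -/
theorem uniqueness : ValuativeCriterion.Uniqueness D.modelTo := by
  intro S
  refine ⟨fun l l' => CommSq.LiftStruct.ext ?_⟩
  have e : Spec.map (CommRingCat.ofHom (algebraMap S.R S.K)) ≫ l.l =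
      Spec.map (CommRingCat.ofHom (algebraMap S.R S.K)) ≫ l'.l :=
    l.fac_left.trans l'.fac_left.symm
  rcases D.mem_range_or (l.l (IsLocalRing.closedPoint S.R)) with ha | ha <;>
    rcases D.mem_range_or (l'.l (IsLocalRing.closedPoint S.R)) with hb | hb
  · exact eq_of_mem_chart D S D.ιFin e ha hb
  · exact eq_of_mem_chart D S D.ιInf e (mem_range_ιInf_of_mixed D S e ha hb) hb
  · exact eq_of_mem_chart D S D.ιInf e ha (mem_range_ιInf_of_mixed D S e.symm hb ha)
  · exact eq_of_mem_chart D S D.ιInf e ha hb

instance isProper_modelTo : IsProper D.modelTo := by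
  have : Smooth D.modelTo := SmoothOfRelativeDimension.smooth 1 D.modelTo
  exact IsProper.of_valuativeCriterion _ (ValuativeCriterion.iff.mpr ⟨D.existence, D.uniqueness⟩)

end AlgClosed

end Fermat.Agent.AbVar.Model.Coord

end
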